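import Fermat.Agent.Row25.AV.Split.Spec
import Fermat.Agent.Row27.GenClass
import Fermat.Agent.Row27.SpecTheory.Main
import Fermat.Agent.Row27.BaseData
import Fermat.Agent.FunctionFieldRR.PushPull
import Mathlib.FieldTheory.SeparableDegree
import Mathlib.RingTheory.TensorProduct.Basic
import Mathlib.LinearAlgebra.TensorProduct.Basis
import Mathlib.RingTheory.Polynomial.Basic

/-!
# Automorphisms over linearly disjoint fields, fields of definition of classes, models
-/

set_option autoImplicit false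

noncomputable section

open AlgebraicCurve Module
open scoped TensorProduct

namespace Fermat.Agent.Row25.Split

open Fermat.Agent.Row27

universe u

variable {K : Type u} [Field K] {Ω : Type u} [Field Ω] [Algebra K Ω]

theorem Disj.eq_zero {S T : Set Ω} (h : Disj K S T) {ι : Type*} [Fintype ι] {l v : ι → Ω}
    (hl : ∀ i, l i ∈ S) (hv : ∀ i, v i ∈ T) (hi : LinearIndependent K v)
    (hs : ∑ i, l i * v i = 0) (i : ι) : l i = 0 := by
  set e := (Fintype.equivFin ι).symm
  have := h _ (fun j => l (e j)) (fun j => v (e j)) (fun j => hl _) (fun j => hv _)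
    (hi.comp e e.injective) (by rw [← hs]; exact e.sum_comp fun i => l i * v i)
    (e.symm i)
  rwa [e.apply_symm_apply] at this

theorem Disj.mono {S S' T T' : Set Ω} (h : Disj K S T) (hS : S' ⊆ S) (hT : T' ⊆ T) :
    Disj K S' T' := fun n l v hl hv => h n l v (fun i => hS (hl i)) fun i => hT (hv i)

/-- Disjoint fields give an embedding of the tensor product. -/
theorem lift_injective {L N : Type u} [Field L] [Field N] [Algebra K L] [Algebra K N]
    (f : L →ₐ[K] Ω) (g : N →ₐ[K] Ω) (hd : Disj K (Set.range f) (Set.range g)) :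
    Function.Injective (Algebra.TensorProduct.lift f g fun _ _ => mul_comm _ _) := by
  classical
  rw [injective_iff_map_eq_zero]
  intro z hz
  let b := Module.Free.chooseBasis K N
  obtain ⟨c, rfl⟩ := TensorProduct.eq_repr_basis_right b z
  rw [Finsupp.sum, map_sum] at hz
  change ∑ i ∈ c.support, f (c i) * g (b i) = 0 at hz
  have hi : LinearIndependent K fun i : c.support => g (b i) :=
    (b.linearIndependent.comp _ Subtype.val_injective).map' g.toLinearMap
      (LinearMap.ker_eq_bot.mpr g.toRingHom.injective)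
  have h0 : ∀ i : c.support, f (c i) = 0 :=
    hd.eq_zero (fun i => ⟨_, rfl⟩) (fun i => ⟨_, rfl⟩) hi (by
      rw [← hz]
      exact Finset.sum_coe_sort c.support fun i => f (c i) * g (b i))
  refine Finset.sum_eq_zero fun i hi' => ?_
  simp only [(map_eq_zero f).mp (h0 ⟨i, hi'⟩), TensorProduct.zero_tmul]

/-- **Embeddings of disjoint fields extend to their algebraic closure.** -/
theorem exists_extend_fix (L N : IntermediateField K Ω) (hd : Disj K (L : Set Ω) (N : Set Ω))
    (halg : ∀ z : Ω, IsAlgebraic (IntermediateField.adjoin K ((L : Set Ω) ∪ N)) z)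
    {Ω' : Type u} [Field Ω'] [Algebra K Ω'] [IsAlgClosed Ω'] (σ : L →ₐ[K] Ω') (τ : N →ₐ[K] Ω')
    (hd' : Disj K (Set.range σ) (Set.range τ)) :
    ∃ s : Ω →ₐ[K] Ω', (∀ l : L, s l = σ l) ∧ ∀ z : N, s z = τ z := by
  set m := Algebra.TensorProduct.lift L.val N.val fun _ _ => mul_comm _ _
  set m' := Algebra.TensorProduct.lift σ τ fun _ _ => mul_comm _ _
  have hm : Function.Injective m := lift_injective L.val N.val (by
    rw [IntermediateField.coe_val, IntermediateField.coe_val, Subtype.range_coe, Subtype.range_coe]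
    exact hd)
  have hm' : Function.Injective m' := lift_injective σ τ hd'
  let e := AlgEquiv.ofInjective m hm
  let π : m.range →ₐ[K] Ω' := m'.comp e.symm.toAlgHom
  have hπ : Function.Injective π := hm'.comp e.symm.injective
  have hmL : ∀ l : L, m (l ⊗ₜ 1) = l := fun l => by
    show L.val l * N.val 1 = (l : Ω)
    rw [map_one, mul_one]
    rfl
  have hmN : ∀ z : N, m (1 ⊗ₜ z) = z := fun z => by
    show L.val 1 * N.val z = (z : Ω)
    rw [map_one, one_mul]
    rfl
  have : FaithfulSMul m.range Ω :=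
    (faithfulSMul_iff_algebraMap_injective m.range Ω).mpr Subtype.val_injective
  have : Algebra.IsAlgebraic m.range Ω := ⟨fun z => by
    have h1 := (IntermediateField.isAlgebraic_adjoin_iff (F := K)).mp (halg z)
    have hle : Algebra.adjoin K ((L : Set Ω) ∪ N) ≤ m.range :=
      Algebra.adjoin_le (by
        rintro w (hw | hw)
        · exact ⟨_, hmL ⟨w, hw⟩⟩
        · exact ⟨_, hmN ⟨w, hw⟩⟩)
    let := (Subalgebra.inclusion hle).toRingHom.toAlgebra
    have : IsScalarTower (Algebra.adjoin K ((L : Set Ω) ∪ N)) m.range Ω :=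
      IsScalarTower.of_algebraMap_eq fun _ => rfl
    exact IsAlgebraic.extendScalars (R := Algebra.adjoin K ((L : Set Ω) ∪ N))
      (S := m.range) (Subalgebra.inclusion_injective hle) h1⟩
  obtain ⟨s, hs⟩ := exists_extend (S := Ω) π.toRingHom hπ
  have hsm : ∀ w, s (m w) = m' w := fun w => by
    have h1 := hs (e w)
    rw [show algebraMap m.range Ω (e w) = m w from rfl] at h1
    rw [h1]
    show m' (e.symm (e w)) = m' w
    rw [AlgEquiv.symm_apply_apply]
  refine ⟨{ s with commutes' := fun c => ?_ }, fun l => ?_, fun z => ?_⟩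
  · show s (algebraMap K Ω c) = _
    rw [← m.commutes c, hsm, m'.commutes]
  · show s l = _
    rw [← hmL l, hsm]
    show σ l * τ 1 = σ l
    rw [map_one, mul_one]
  · show s z = _
    rw [← hmN z, hsm]
    show σ 1 * τ z = τ z
    rw [map_one, one_mul]

variable [IsAlgClosed Ω]

/-- Embeddings of disjoint closed fields extend to automorphisms. -/
theorem exists_aut_fix {L N : IntermediateField K Ω} [IsAlgClosed L] [IsAlgClosed N]
    (hd : Disj K (L : Set Ω) (N : Set Ω))
    (halg : ∀ z : Ω, IsAlgebraic (IntermediateField.adjoin K ((L : Set Ω) ∪ N)) z)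
    (σ : L ≃ₐ[K] L) :
    ∃ s : Ω ≃ₐ[K] Ω, (∀ l : L, s l = σ l) ∧ ∀ z ∈ N, s z = z := by
  obtain ⟨s, h1, h2⟩ := exists_extend_fix L N hd halg (L.val.comp σ.toAlgHom) N.val
    (hd.mono (by rintro _ ⟨l, rfl⟩; exact (σ l).2) (by rintro _ ⟨z, rfl⟩; exact z.2))
  have hsurj : Function.Surjective s := fun z =>
    mem_range_of_isAlgebraic s (S := (L : Set Ω) ∪ N) (by
      rintro w (hw | hw)
      · exact ⟨(σ.symm ⟨w, hw⟩ : L), (h1 _).trans (congrArg Subtype.val (σ.apply_symm_apply _))⟩
      · exact ⟨w, h2 ⟨w, hw⟩⟩) (halg z)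
  exact ⟨AlgEquiv.ofBijective s ⟨s.toRingHom.injective, hsurj⟩, h1, fun z hz => h2 ⟨z, hz⟩⟩

omit [IsAlgClosed Ω] in
/-- An element of an adjoined field needs finitely many generators. -/
theorem exists_finset_adjoin {S : Set Ω} (s : Finset Ω)
    (hs : ∀ x ∈ s, x ∈ IntermediateField.adjoin K S) :
    ∃ T : Finset Ω, (T : Set Ω) ⊆ S ∧ ∀ x ∈ s, x ∈ IntermediateField.adjoin K (T : Set Ω) := by
  classical
  have h : ∀ x : {x // x ∈ s}, ∃ T : Finset Ω, (T : Set Ω) ⊆ S ∧
      x.1 ∈ IntermediateField.adjoin K (T : Set Ω) := fun x =>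
    IntermediateField.exists_finset_of_mem_adjoin (F := K) (E := Ω) (S := S) (x := x.1) (hs x.1 x.2)
  choose T hT hT' using h
  refine ⟨Finset.univ.biUnion T, ?_, fun x hx => ?_⟩
  · intro w hw
    obtain ⟨x, -, hx⟩ := Finset.mem_biUnion.mp (Finset.mem_coe.mp hw)
    exact hT x hx
  · have h1 : (T ⟨x, hx⟩ : Set Ω) ⊆ ↑(Finset.univ.biUnion T) := fun w hw =>
      Finset.mem_biUnion.mpr ⟨⟨x, hx⟩, Finset.mem_univ _, hw⟩
    exact (IntermediateField.adjoin.mono K _ _ h1) (hT' ⟨x, hx⟩)

/-- An element fixed by the automorphisms over a field has a power in it. -/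
theorem exists_pow_mem (F : Subfield Ω) (halg : ∀ z : Ω, IsAlgebraic F z) {z : Ω}
    (h : ∀ τ : Ω →ₐ[F] Ω, τ z = z) :
    ∀ q : ℕ, ExpChar F q → ∃ n : ℕ, z ^ q ^ n ∈ F := by
  intro q hq
  classical
  have : Algebra.IsAlgebraic F Ω := ⟨halg⟩
  set p := minpoly F z
  have hp : p ≠ 0 := minpoly.ne_zero (halg z).isIntegral
  have h1 : p.natSepDegree = 1 := by
    have hsub : p.rootSet Ω = {z} := by
      rw [← Algebra.IsAlgebraic.range_eval_eq_rootSet_minpoly (F := F) Ω z]
      ext w
      exact ⟨fun ⟨τ, hτ⟩ => hτ.symm.trans (h τ), fun hw => ⟨AlgHom.id F Ω, hw.symm⟩⟩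
    rw [Polynomial.natSepDegree_eq_of_isAlgClosed (f := p) Ω]
    rw [Polynomial.rootSet_def] at hsub
    rw [show (p.aroots Ω).toFinset = {z} from Finset.coe_injective
        (by rw [hsub, Finset.coe_singleton]),
      Finset.card_singleton]
  obtain ⟨n, y, hy⟩ := (minpoly.natSepDegree_eq_one_iff_pow_mem q).mp h1
  exact ⟨n, hy ▸ y.2⟩

section Classes

variable [IsAlgClosed K] {C : CurveData K} (T : SpecTheory C)

omit [IsAlgClosed K] in
/-- The image of a class only depends on the images of finitely many coordinates. -/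
theorem exists_coords (x : Pic0 Ω (C.curve Ω)) :
    ∃ c : Finset Ω, ∀ σ σ' : Ω ≃ₐ[K] Ω, (∀ z ∈ c, σ z = σ' z) → T.act σ x = T.act σ' x := by
  classical
  obtain ⟨D, -, rfl⟩ := C.cls_surjective Ω x
  refine ⟨D.support.biUnion fun Q => Finset.univ.image fun l => C.coord Q l, fun σ σ' h => ?_⟩
  rw [SpecTheory.act, SpecTheory.act, T.pic_cls', T.pic_cls', T.push_apply, T.push_apply]
  refine congrArg _ (Finsupp.mapDomain_congr fun Q hQ => ?_)
  rcases eq_or_ne Q (C.inf Ω) with rfl | hQ'
  · rw [T.place_inf, T.place_inf]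
  · refine C.coord_injective (T.place_ne_inf _ hQ') (T.place_ne_inf _ hQ') fun l => ?_
    rw [T.coord_place, T.coord_place]
    exact h _ (Finset.mem_biUnion.mpr ⟨Q, hQ, Finset.mem_image_of_mem _ (Finset.mem_univ l)⟩)

omit [IsAlgClosed K] in
/-- In genus zero there are no classes. -/
theorem eq_zero_of_g (hg : C.g = 0) (x : Pic0 Ω (C.curve Ω)) : x = 0 := by
  obtain ⟨E, hE, hEd, rfl⟩ := C.exists_effective Ω x (d := 0) (by omega)
  rw [(C.rr Ω).eq_zero_of_nonneg_of_degree_le hE (by omega), map_zero]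

end Classes

omit [IsAlgClosed Ω] in
open IntermediateField in
/-- **Models**: a field generated by a transcendental element and finitely many elements
algebraic over it is the field of a model. -/
theorem exists_model [IsAlgClosed K] {t : Ω} (ht : Transcendental K t) (S : Finset Ω)
    (hS : ∀ z ∈ S, IsAlgebraic K⟮t⟯ z) :
    ∃ (C : CurveData K) (em : C.curve K →ₐ[K] Ω),
      Set.range em = IntermediateField.adjoin K (insert t (S : Set Ω)) := by
  classical
  set F := IntermediateField.adjoin K⟮t⟯ (S : Set Ω)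
  have : FiniteDimensional K⟮t⟯ F :=
    IntermediateField.finiteDimensional_adjoin fun z hz => (hS z hz).isIntegral
  have := FunctionFieldRR.isFunctionField_adjoin ht
  have : FunctionFieldRR.IsFunctionField K F :=
    FunctionFieldRR.isFunctionField_of_finite (F' := F) K K⟮t⟯
  obtain ⟨O⟩ : Nonempty (Place K F) := inferInstance
  obtain ⟨C, e, -, -⟩ := exists_curveData' K F O
  refine ⟨C, (F.val.restrictScalars K).comp e.symm.toAlgHom, ?_⟩
  rw [Set.insert_eq, ← IntermediateField.adjoin_adjoin_left K {t} (S : Set Ω),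
    IntermediateField.coe_restrictScalars]
  refine Set.ext fun z => ⟨?_, fun hz => ?_⟩
  · rintro ⟨w, rfl⟩
    exact (e.symm w).2
  · exact ⟨e ⟨z, hz⟩, congrArg Subtype.val (e.symm_apply_apply ⟨z, hz⟩)⟩

end Fermat.Agent.Row25.Split

end
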