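import Fermat.Agent.Row27.Interface
import Mathlib.RingTheory.Valuation.LocalSubring
import Mathlib.RingTheory.Jacobson.Ring
import Mathlib.Algebra.MvPolynomial.Funext
import Mathlib.RingTheory.AlgebraicIndependent.Basic
import Mathlib.FieldTheory.IsAlgClosed.Basic
import Fermat.Agent.AV.Instances

/-!
# Specialisations of constants with a prescribed residue field

A valuation ring that is minimal among those with a given centre has residue field algebraic over
the residue field of the centre. This yields specialisations onto an algebraically closed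
subfield, rational points with finitely many prescribed integral elements, and the linear
disjointness of algebraically independent extensions of an algebraically closed field.
-/

set_option autoImplicit false

noncomputable section

open Polynomial IsLocalRing

namespace Fermat.Agent.Row25.Split

open Fermat.Agent.Row27

universe u

variable {Ω : Type u} [Field Ω]

/-- The intersection of a nonempty chain of valuation rings. -/
def chainInf (c : Set (ValuationSubring Ω)) (hc : IsChain (· ≤ ·) c) : ValuationSubring Ω where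
  toSubring := ⨅ V : c, V.1.toSubring
  mem_or_inv_mem' x := by
    by_contra h
    push Not at h
    obtain ⟨h1, h2⟩ := h
    simp only [Subring.mem_carrier, Subring.mem_iInf, not_forall] at h1 h2
    obtain ⟨V, hV⟩ := h1
    obtain ⟨W, hW⟩ := h2
    rcases hc.total V.2 W.2 with hle | hle
    · exact (V.1.mem_or_inv_mem x).elim hV fun h => hW (hle h)
    · exact (W.1.mem_or_inv_mem x).elim (fun h => hV (hle h)) hW

theorem mem_chainInf {c : Set (ValuationSubring Ω)} {hc : IsChain (· ≤ ·) c} {x : Ω} :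
    x ∈ chainInf c hc ↔ ∀ V ∈ c, x ∈ V := by
  show x ∈ (⨅ V : c, V.1.toSubring) ↔ _
  simp [Subring.mem_iInf]

/-- A minimal valuation ring with a given centre. -/
theorem exists_minimal (R : Subring Ω) (I : Ideal R) (hI : I ≠ ⊤) :
    ∃ V : ValuationSubring Ω, R ≤ V.toSubring ∧ R.subtype '' I ⊆ V.nonunits ∧
      ∀ W : ValuationSubring Ω, W ≤ V → R ≤ W.toSubring → W = V := by
  obtain ⟨V₀, h0, h0'⟩ := Ideal.image_subset_nonunits_valuationSubring I hI
  set P : Set (ValuationSubring Ω)ᵒᵈ :=
    {V | R ≤ (OrderDual.ofDual V).toSubring ∧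
      R.subtype '' I ⊆ (OrderDual.ofDual V).nonunits} with hP
  obtain ⟨M, -, hM⟩ := zorn_le_nonempty₀ P (fun c hcP hc y hy => by
    set c' : Set (ValuationSubring Ω) := OrderDual.toDual ⁻¹' c
    have hc' : IsChain (· ≤ ·) c' := fun a ha b hb hne =>
      (hc ha hb fun e => hne (OrderDual.toDual.injective e)).symm
    refine ⟨OrderDual.toDual (chainInf c' hc'), ⟨fun r hr => (mem_chainInf (hc := hc')).mpr fun V hV
        =>
      (hcP hV).1 hr, ?_⟩, fun z hz x hx => (mem_chainInf (hc := hc')).mp hx (OrderDual.ofDual z) hz⟩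
    intro x hx
    rcases eq_or_ne x 0 with rfl | hx0
    · exact zero_mem _
    refine (ValuationSubring.mem_nonunits_iff_or _).mpr (Or.inr fun h => ?_)
    exact ((ValuationSubring.mem_nonunits_iff_or _).mp ((hcP hy).2 hx)).elim hx0 fun h' =>
      h' ((mem_chainInf (hc := hc')).mp h (OrderDual.ofDual y) hy))
    (OrderDual.toDual V₀) ⟨h0, h0'⟩
  refine ⟨OrderDual.ofDual M, hM.1.1, hM.1.2, fun W hW hR => le_antisymm hW ?_⟩
  exact hM.le_of_ge (y := OrderDual.toDual W)
    ⟨hR, fun x hx => ValuationSubring.nonunits_le_nonunits.mpr hW (hM.1.2 hx)⟩ hW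

variable {K : Type u} [Field K] [Algebra K Ω] {k : Type u} [Field k] [Algebra K k] [IsAlgClosed k]

/-- **Specialisations onto an algebraically closed subfield.** If every element of `R` is
congruent modulo the proper ideal `I` to an element of `k`, some specialisation onto `k` fixes
`k`, is defined on `R` and kills `I`. -/
theorem exists_spec (ψ : k →ₐ[K] Ω) (R : Subring Ω) (hψ : ∀ a, ψ a ∈ R) (I : Ideal R)
    (hI : I ≠ ⊤) (hR : ∀ r : R, ∃ a, r - ⟨ψ a, hψ a⟩ ∈ I) :
    ∃ (Φ : Spec K Ω k) (h : R ≤ Φ.dom.toSubring),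
      (∀ a, Φ.map ⟨ψ a, h (hψ a)⟩ = a) ∧ ∀ r ∈ I, Φ.map ⟨(r : Ω), h r.2⟩ = 0 := by
  obtain ⟨V, hRV, hIV, hmin⟩ := exists_minimal R I hI
  let e : k →+* V := (ψ : k →+* Ω).codRestrict V.toSubring fun a => hRV (hψ a)
  let alg : k →+* ResidueField V := (residue V).comp e
  have hres0 : ∀ r ∈ I, residue V ⟨(r : Ω), hRV r.2⟩ = 0 := fun r hr =>
    (residue_eq_zero_iff _).mpr (ValuationSubring.coe_mem_nonunits_iff.mp (hIV ⟨r, hr, rfl⟩))
  have hbij : Function.Bijective alg := by
    refine ⟨alg.injective, fun y => ?_⟩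
    by_contra hy
    have hy' : ∀ a, alg a ≠ y := fun a ha => hy ⟨a, ha⟩
    algebraize [alg]
    have htr : ∀ p : k[X], aeval y p = 0 → p = 0 := by
      intro p hp
      by_contra hp0
      have hint : IsIntegral k y := (show IsAlgebraic k y from ⟨p, hp0, hp⟩).isIntegral
      obtain ⟨a, ha⟩ := minpoly.degree_eq_one_iff.mp
        (IsAlgClosed.degree_eq_one_of_irreducible k (minpoly.irreducible hint))
      exact hy' a ha
    let B : Subring (ResidueField V) := (aeval y : k[X] →ₐ[k] _).toRingHom.range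
    let yB : B := ⟨y, X, aeval_X y⟩
    have hB : Ideal.span {yB} ≠ ⊤ := by
      rw [ne_eq, Ideal.span_singleton_eq_top]
      intro hu
      obtain ⟨⟨_, p, rfl⟩, hp⟩ := isUnit_iff_exists_inv.mp hu
      have h1 : aeval y (X * p - 1) = 0 := by
        have h2 : y * aeval y p = 1 := congrArg Subtype.val hp
        rw [map_sub, map_mul, map_one, aeval_X, h2, sub_self]
      simpa using congrArg (coeff · 0) (htr _ h1)
    obtain ⟨W, hBW, hW⟩ := Ideal.image_subset_nonunits_valuationSubring _ hB
    let V' : ValuationSubring Ω :=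
      { toSubring := (W.toSubring.comap (residue V)).map V.subtype
        mem_or_inv_mem' := fun x => by
          rcases V.mem_or_inv_mem x with hx | hx
          · rcases W.mem_or_inv_mem (residue V ⟨x, hx⟩) with h | h
            · exact Or.inl ⟨⟨x, hx⟩, h, rfl⟩
            rcases eq_or_ne (residue V ⟨x, hx⟩) 0 with h0 | h0
            · exact Or.inl ⟨⟨x, hx⟩, by show residue V ⟨x, hx⟩ ∈ W; rw [h0]; exact zero_mem _, rfl⟩
            obtain ⟨v, hv⟩ := isUnit_iff_exists_inv.mp ((residue_ne_zero_iff_isUnit _).mp h0)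
            refine Or.inr ⟨v, ?_, ?_⟩
            · show residue V v ∈ W
              rw [show residue V v = (residue V ⟨x, hx⟩)⁻¹ from eq_inv_of_mul_eq_one_right (by
                rw [← map_mul, hv, map_one])]
              exact h
            · exact eq_inv_of_mul_eq_one_right (congrArg Subtype.val hv :)
          · rcases W.mem_or_inv_mem (residue V ⟨x⁻¹, hx⟩) with h | h
            · exact Or.inr ⟨⟨x⁻¹, hx⟩, h, rfl⟩
            rcases eq_or_ne (residue V ⟨x⁻¹, hx⟩) 0 with h0 | h0
            · exact Or.inr ⟨⟨x⁻¹, hx⟩, by show residue V _ ∈ W; rw [h0]; exact zero_mem _, rfl⟩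
            obtain ⟨v, hv⟩ := isUnit_iff_exists_inv.mp ((residue_ne_zero_iff_isUnit _).mp h0)
            refine Or.inl ⟨v, ?_, ?_⟩
            · show residue V v ∈ W
              rw [show residue V v = (residue V ⟨x⁻¹, hx⟩)⁻¹ from eq_inv_of_mul_eq_one_right (by
                rw [← map_mul, hv, map_one])]
              exact h
            · have h3 : x⁻¹ * (v : Ω) = 1 := congrArg Subtype.val hv
              exact (eq_inv_of_mul_eq_one_right h3).trans (inv_inv x) }
    have hle : V' ≤ V := by
      rintro x ⟨v, -, rfl⟩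
      exact v.2
    have hRV' : R ≤ V'.toSubring := by
      intro r hr
      obtain ⟨a, ha⟩ := hR ⟨r, hr⟩
      refine ⟨⟨r, hRV hr⟩, ?_, rfl⟩
      show residue V ⟨r, hRV hr⟩ ∈ W
      have h1 := hres0 _ ha
      have h2 : residue V ⟨r, hRV hr⟩ = alg a := by
        rw [← sub_eq_zero, RingHom.comp_apply, ← map_sub, ← h1]
        exact congrArg _ (Subtype.ext (by simp [e]))
      rw [h2]
      exact hBW ⟨C a, aeval_C y a⟩
    have hy0 : y ≠ 0 := fun h => hy' 0 (by rw [h, map_zero])
    obtain ⟨v, hv⟩ := residue_surjective y⁻¹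
    have hvV' : (v : Ω) ∈ V' := (hmin V' hle hRV').symm ▸ v.2
    obtain ⟨v', hv', hvv⟩ := hvV'
    rw [Subtype.val_injective hvv] at hv'
    have hyW : y ∈ W.nonunits := hW ⟨yB, Ideal.subset_span rfl, rfl⟩
    rcases (ValuationSubring.mem_nonunits_iff_or _).mp hyW with h | h
    · exact hy0 h
    · exact h (hv ▸ hv')
  let inv : ResidueField V →+* k := (RingEquiv.ofBijective alg hbij).symm.toRingHom
  have hinv : ∀ a, inv (alg a) = a := fun a => (RingEquiv.ofBijective alg hbij).symm_apply_apply a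
  refine ⟨{
    dom := V
    trivOn := fun c => hRV (ψ.commutes c ▸ hψ (algebraMap K k c))
    map := inv.comp (residue V)
    map_algebraMap := fun c => ?_
    map_eq_zero := fun x => ?_ }, hRV, fun a => hinv a, fun r hr => ?_⟩
  · have : ∀ h : algebraMap K Ω c ∈ V, (⟨algebraMap K Ω c, h⟩ : V) = e (algebraMap K k c) :=
      fun h => Subtype.ext (ψ.commutes c).symm
    rw [RingHom.comp_apply, this]
    exact hinv _
  · rw [RingHom.comp_apply, map_eq_zero_iff _ inv.injective, residue_eq_zero_iff,
      mem_maximalIdeal, mem_nonunits_iff]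
  · rw [RingHom.comp_apply]
    show inv (residue V ⟨(r : Ω), hRV r.2⟩) = 0
    rw [hres0 r hr, map_zero]

/-- **Rational points**: finitely many elements are integral at some specialisation to `K`. -/
theorem exists_spec_finset [IsAlgClosed K] (S : Finset Ω) :
    ∃ Φ : Spec K Ω K, ∀ x ∈ S, x ∈ Φ.dom := by
  set R := Algebra.adjoin K (S : Set Ω) with hR
  have : Algebra.FiniteType K R :=
    (Subalgebra.fg_iff_finiteType _).mp ⟨S, rfl⟩
  obtain ⟨M, hM⟩ := Ideal.exists_maximal R
  let := Ideal.Quotient.field M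
  have : Algebra.FiniteType K (R ⧸ M) :=
    Algebra.FiniteType.of_surjective (Ideal.Quotient.mkₐ K M) (Ideal.Quotient.mkₐ_surjective K M)
  have : Module.Finite K (R ⧸ M) := finite_of_finite_type_of_isJacobsonRing K (R ⧸ M)
  have hsurj : ∀ z : R ⧸ M, ∃ a, algebraMap K (R ⧸ M) a = z := fun z => by
    have hint : IsIntegral K z := IsIntegral.of_finite K z
    obtain ⟨a, ha⟩ := minpoly.degree_eq_one_iff.mp
      (IsAlgClosed.degree_eq_one_of_irreducible K (minpoly.irreducible hint))
    exact ⟨a, ha⟩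
  obtain ⟨Φ, h, -, -⟩ := exists_spec (Algebra.ofId K Ω) R.toSubring
    (fun a => R.algebraMap_mem a) M hM.ne_top fun r => by
      obtain ⟨a, ha⟩ := hsurj (Ideal.Quotient.mk M r)
      exact ⟨a, Ideal.Quotient.eq.mp (ha.symm.trans rfl)⟩
  exact ⟨Φ, fun x hx => h (Algebra.subset_adjoin hx)⟩

omit [IsAlgClosed k] in
/-- An algebraic element with unit leading coefficient is integral and has an algebraic image. -/
theorem mem_dom_of_root (Φ : Spec K Ω k) {p : Polynomial Φ.dom} (hp : IsUnit p.leadingCoeff)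
    {z : Ω} (hz : p.eval₂ Φ.dom.subtype z = 0) :
    ∃ h : z ∈ Φ.dom, (p.map Φ.map).eval (Φ.map ⟨z, h⟩) = 0 := by
  have h : z ∈ Φ.dom := by
    obtain ⟨c, hc⟩ := hp
    have hm : (C (↑c⁻¹ : Φ.dom) * p).Monic := by
      rw [Monic, leadingCoeff_mul', leadingCoeff_C, ← hc]
      · simp
      · rw [leadingCoeff_C, ← hc]; simp
    refine (Φ.dom.valuation_le_one_iff z).mp (valuation_le_of_monic (hm.map Φ.dom.subtype)
      (by rw [eval_map, eval₂_mul, hz, mul_zero]) le_rfl fun i => ?_)
    rw [coeff_map]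
    exact Φ.dom.valuation_le_one _
  refine ⟨h, ?_⟩
  rw [eval_map, eval₂_at_apply]
  have h0 : p.eval (⟨z, h⟩ : Φ.dom) = 0 := Subtype.ext (by
    show Φ.dom.subtype (p.eval ⟨z, h⟩) = 0
    rw [← eval₂_at_apply]
    exact hz)
  rw [h0, map_zero]

omit [IsAlgClosed k] in
/-- A specialisation fixing a subfield maps elements that are algebraic over elements with
constant images to constants. -/
theorem exists_const_map [IsAlgClosed K] (Φ : Spec K Ω k) {p : Polynomial Φ.dom}
    (hp : IsUnit p.leadingCoeff) (hc : ∀ i, ∃ c, Φ.map (p.coeff i) = algebraMap K k c)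
    {z : Ω} (hz : p.eval₂ Φ.dom.subtype z = 0) :
    ∃ (h : z ∈ Φ.dom) (c : K), Φ.map ⟨z, h⟩ = algebraMap K k c := by
  obtain ⟨h, hroot⟩ := mem_dom_of_root Φ hp hz
  have hl : p.map Φ.map ∈ lifts (algebraMap K k) := by
    rw [lifts_iff_coeff_lifts]
    intro i
    rw [coeff_map]
    obtain ⟨c, hc⟩ := hc i
    exact ⟨c, hc.symm⟩
  obtain ⟨q, hq⟩ := hl
  rw [coe_mapRingHom] at hq
  have hq0 : q ≠ 0 := fun h0 => by
    have h1 := congrArg (coeff · p.natDegree) hq
    simp only [h0, Polynomial.map_zero, coeff_zero, coeff_map] at h1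
    exact ((Φ.map_eq_zero _).mp h1.symm) hp
  have hint : IsIntegral K (Φ.map ⟨z, h⟩) := (show IsAlgebraic K (Φ.map ⟨z, h⟩) from ⟨q, hq0, by
    rw [aeval_def, ← eval_map, hq]; exact hroot⟩).isIntegral
  obtain ⟨c, hc⟩ := minpoly.degree_eq_one_iff.mp
    (IsAlgClosed.degree_eq_one_of_irreducible K (minpoly.irreducible hint))
  exact ⟨h, c, hc.symm⟩

variable (K) in
/-- Vectors independent over `K` in the second set stay independent over the first. -/
def Disj (S T : Set Ω) : Prop :=
  ∀ (n : ℕ) (l v : Fin n → Ω), (∀ i, l i ∈ S) → (∀ i, v i ∈ T) → LinearIndependent K v →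
    ∑ i, l i * v i = 0 → ∀ i, l i = 0

/-- Algebraically independent extensions of an algebraically closed field are linearly
disjoint. -/
theorem disj_of_algebraicIndependent [IsAlgClosed K] (N : IntermediateField K Ω) [IsAlgClosed N]
    {ι : Type*} (t : ι → Ω) (ht : AlgebraicIndependent N t) {L : IntermediateField K Ω}
    (hL : ∀ z ∈ L, IsAlgebraic (Algebra.adjoin K (Set.range t)) z) :
    Disj K (L : Set Ω) (N : Set Ω) := by
  classical
  intro n l v hl hv hind hsum j
  by_contra hj
  -- normalise and collect the leading coefficients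
  set l' : Fin n → Ω := fun i => l i / l j
  have hpoly : ∀ i, ∃ p : Polynomial (MvPolynomial ι K), p ≠ 0 ∧
      p.eval₂ (MvPolynomial.aeval t).toRingHom (l' i) = 0 := by
    intro i
    obtain ⟨p, hp, hp0⟩ := hL (l' i) (div_mem (hl i) (hl j))
    have hlift : p.map (algebraMap _ Ω) ∈ lifts (MvPolynomial.aeval (R := K) t).toRingHom := by
      rw [lifts_iff_coeff_lifts]
      intro m
      rw [coeff_map]
      obtain ⟨q, hq⟩ : ((p.coeff m : Algebra.adjoin K (Set.range t)) : Ω) ∈
          (MvPolynomial.aeval (R := K) t).range :=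
        (Algebra.adjoin_range_eq_range_aeval K t).le (p.coeff m).2
      exact ⟨q, hq⟩
    obtain ⟨q, hq⟩ := hlift
    rw [coe_mapRingHom] at hq
    refine ⟨q, fun h => hp ?_, by rw [← eval_map, hq, eval_map]; exact hp0⟩
    rw [h, Polynomial.map_zero, eq_comm, Polynomial.map_eq_zero_iff Subtype.val_injective] at hq
    exact hq
  choose p hp hp0 using hpoly
  obtain ⟨a, ha⟩ : ∃ a : ι → K, MvPolynomial.eval a (∏ i, (p i).leadingCoeff) ≠ 0 := by
    by_contra h
    push Not at h
    refine (Finset.prod_ne_zero_iff.mpr fun i _ => leadingCoeff_ne_zero.mpr (hp i))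
      (MvPolynomial.funext (q := 0) fun a => by rw [h a, map_zero])
  rw [map_prod, Finset.prod_ne_zero_iff] at ha
  -- the point `t = a` over `N`
  set ev : MvPolynomial ι N →ₐ[N] Ω := MvPolynomial.aeval t with hev
  let R : Subring Ω := ev.toRingHom.range
  let χ : MvPolynomial ι N →+* N := MvPolynomial.eval fun i => algebraMap K N (a i)
  let I : Ideal R := Ideal.map ev.toRingHom.rangeRestrict (RingHom.ker χ)
  have hinj : Function.Injective ev.toRingHom.rangeRestrict := fun x y h =>
    ht (congrArg Subtype.val h)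
  have hI : I ≠ ⊤ := by
    intro h
    have h1 : ev.toRingHom.rangeRestrict 1 ∈ I := by rw [h]; trivial
    obtain ⟨x, hx, hx1⟩ :=
      (Ideal.mem_map_iff_of_surjective _ ev.toRingHom.rangeRestrict_surjective).mp h1
    rw [hinj hx1, RingHom.mem_ker, map_one] at hx
    exact one_ne_zero hx
  have hψ : ∀ b : N, (N.val : N →ₐ[K] Ω) b ∈ R := fun b =>
    ⟨MvPolynomial.C b, by simp [hev]⟩
  have hcong : ∀ (f : MvPolynomial ι N), ev.toRingHom.rangeRestrict f -
      (⟨N.val (χ f), hψ _⟩ : R) ∈ I := fun f => by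
    have : (⟨N.val (χ f), hψ _⟩ : R) = ev.toRingHom.rangeRestrict (MvPolynomial.C (χ f)) :=
      Subtype.ext (MvPolynomial.aeval_C t (χ f)).symm
    rw [this, ← map_sub]
    exact Ideal.mem_map_of_mem _ (by simp [RingHom.mem_ker, χ])
  obtain ⟨Φ, hR, hfix, hkill⟩ := exists_spec N.val R hψ I hI fun r => by
    obtain ⟨f, rfl⟩ := ev.toRingHom.rangeRestrict_surjective r
    exact ⟨χ f, hcong f⟩
  have hRmap : ∀ f, Φ.map ⟨ev f, hR ⟨f, rfl⟩⟩ = χ f := fun f => by
    have h1 := hkill _ (hcong f)
    have e : (⟨((ev.toRingHom.rangeRestrict f - ⟨N.val (χ f), hψ _⟩ : R) : Ω), hR (Subtype.prop _)⟩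
        :
        Φ.dom) = ⟨ev f, hR ⟨f, rfl⟩⟩ - ⟨N.val (χ f), hR (hψ _)⟩ := rfl
    rw [e, map_sub, hfix, sub_eq_zero] at h1
    exact h1
  let inclN : MvPolynomial ι K →+* MvPolynomial ι N := MvPolynomial.map (algebraMap K N)
  have hevK : ∀ f, ev (inclN f) = MvPolynomial.aeval t f := fun f => by
    show MvPolynomial.aeval t (MvPolynomial.map (algebraMap K N) f) = _
    rw [MvPolynomial.aeval_map_algebraMap]
  have hχK : ∀ f, χ (inclN f) = algebraMap K N (MvPolynomial.eval a f) := fun f => by
    show MvPolynomial.eval _ (MvPolynomial.map _ f) = _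
    rw [MvPolynomial.eval_map, MvPolynomial.eval₂_comp]
    rfl
  have hconst : ∀ i, ∃ (h : l' i ∈ Φ.dom) (c : K), Φ.map ⟨l' i, h⟩ = algebraMap K N c := by
    intro i
    let toD : MvPolynomial ι K →+* Φ.dom :=
      ((MvPolynomial.aeval (R := K) t).toRingHom).codRestrict Φ.dom.toSubring fun f =>
        hR ⟨inclN f, hevK f⟩
    have htoD : ∀ f, Φ.map (toD f) = algebraMap K N (MvPolynomial.eval a f) := fun f => by
      rw [← hχK, ← hRmap]
      exact congrArg Φ.map (Subtype.ext (hevK f).symm)
    have hlc : IsUnit (toD (p i).leadingCoeff) := by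
      by_contra h
      have h1 := (Φ.map_eq_zero _).mpr h
      rw [htoD, map_eq_zero] at h1
      exact ha i (Finset.mem_univ i) h1
    have hlead : ((p i).map toD).leadingCoeff = toD (p i).leadingCoeff :=
      leadingCoeff_map_of_leadingCoeff_ne_zero toD hlc.ne_zero
    refine exists_const_map Φ (p := (p i).map toD) (hlead ▸ hlc) (fun m => ?_) ?_
    · rw [coeff_map, htoD]; exact ⟨_, rfl⟩
    · rw [eval₂_map]; exact hp0 i
  choose hdom c hc using hconst
  have hv' : ∀ i, v i ∈ Φ.dom := fun i => hR (hψ ⟨v i, hv i⟩)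
  have h1 : ∑ i, (⟨l' i, hdom i⟩ : Φ.dom) * ⟨v i, hv' i⟩ = 0 := Subtype.ext (by
    show Φ.dom.subtype _ = 0
    simp only [map_sum, map_mul, ValuationSubring.subtype_apply, l', div_mul_eq_mul_div,
      ]
    simp only [div_eq_mul_inv, ← Finset.sum_mul, hsum, zero_mul])
  have h2 := congrArg Φ.map h1
  simp only [map_sum, map_mul, map_zero, hc] at h2
  have h3 : ∑ i, c i • v i = 0 := by
    have h4 := congrArg N.val h2
    rw [map_sum, map_zero] at h4
    refine Eq.trans (Finset.sum_congr rfl fun i _ => ?_) h4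
    rw [map_mul, AlgHom.commutes, show Φ.map ⟨v i, hv' i⟩ = (⟨v i, hv i⟩ : N) from hfix ⟨v i, hv i⟩,
      Algebra.smul_def]
    rfl
  have h5 := Fintype.linearIndependent_iff.mp hind c h3 j
  have h6 : Φ.map ⟨l' j, hdom j⟩ = 1 := by
    rw [show (⟨l' j, hdom j⟩ : Φ.dom) = 1 from Subtype.ext (div_self hj), map_one]
  rw [hc, h5, map_zero] at h6
  exact zero_ne_one h6

end Fermat.Agent.Row25.Split

end
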