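import Fermat.Agent.Row25.AV.Split.Core

/-!
# Classes over the compositum of two independent closed fields

A class fixed by the automorphisms over two algebraically independent closed fields is a sum of
classes of the two fields. The second field is reached by steps of transcendence degree one.
-/

set_option autoImplicit false

noncomputable section

open AlgebraicCurve Module
open IntermediateField (adjoin)

namespace Fermat.Agent.Row25.Split

open Fermat.Agent.Row27

universe u

section Tower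

variable {K : Type u} [Field K] {k : Type u} [Field k] [Algebra K k] {Ω : Type u} [Field Ω]
  [Algebra K Ω] [Algebra k Ω] [IsScalarTower K k Ω] [IsAlgClosed Ω]

/-- Algebraicity is transitive along algebraic generators. -/
theorem isAlgebraic_of_gens (E : IntermediateField k Ω) {S : Set Ω}
    (hS : ∀ w ∈ S, IsAlgebraic E w) {z : Ω} (hz : IsAlgebraic (adjoin K S) z) :
    IsAlgebraic E z := by
  let A : IntermediateField K Ω := ((algebraicClosure E Ω).restrictScalars k).restrictScalars K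
  have : IsAlgClosed A := IsAlgClosure.isAlgClosed E (K := algebraicClosure E Ω)
  obtain ⟨v, rfl⟩ := mem_range_of_isAlgebraic A.val (S := S)
    (fun w hw => ⟨⟨w, mem_algebraicClosure_iff.mpr (hS w hw)⟩, rfl⟩) hz
  exact mem_algebraicClosure_iff.mp v.2

omit [Algebra K k] [IsScalarTower K k Ω] [IsAlgClosed Ω] in
theorem isAlgebraic_of_mem {E : IntermediateField k Ω} {w : Ω} (hw : w ∈ E) : IsAlgebraic E w :=
  isAlgebraic_algebraMap (⟨w, hw⟩ : E)

omit [IsAlgClosed Ω] [Algebra K k] [IsScalarTower K k Ω] in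
/-- A closed field contains the elements algebraic over it. -/
theorem mem_of_isAlgebraic (A : IntermediateField k Ω) [IsAlgClosed A] {z : Ω}
    (hz : IsAlgebraic A z) : z ∈ A := by
  obtain ⟨v, rfl⟩ := mem_range_of_isAlgebraic A.val (S := (A : Set Ω))
    (fun w hw => ⟨⟨w, hw⟩, rfl⟩) (z := z) (by rwa [IntermediateField.adjoin_self])
  exact v.2

end Tower

variable {K : Type u} [Field K]

/-- Images of classes along a composition. -/
theorem pic_pic_eq {C : CurveData K} (T : SpecTheory C) {A B D : Type u} [Field A] [Algebra K A]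
    [IsAlgClosed A] [Field B] [Algebra K B] [IsAlgClosed B] [Field D] [Algebra K D] [IsAlgClosed D]
    (f : A →ₐ[K] B) (g : B →ₐ[K] D) (h : A →ₐ[K] D) (e : ∀ a, g (f a) = h a)
    (y : Pic0 A (C.curve A)) :
    T.pic (Spec.ofAlgHom g) (T.pic (Spec.ofAlgHom f) y) = T.pic (Spec.ofAlgHom h) y := by
  obtain rfl : g.comp f = h := AlgHom.ext e
  exact T.pic_algHom_comp f g y

/-- Regrouping of two decompositions. -/
theorem add_regroup {X : Type*} [AddCommGroup X] {a b p q x : X} (h : a + b = x)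
    (h' : p + q = a) : p + (b + q) = x := by
  rw [← h, ← h']
  abel

/-- The step: a field of transcendence degree one over the closed field of the others. -/
theorem exists_split_step {C : CurveData K} (hg : 0 < C.g) {Ω : Type u} [Field Ω] [Algebra K Ω]
    [IsAlgClosed Ω] {L N : IntermediateField K Ω} [IsAlgClosed L] [IsAlgClosed N] {r : ℕ}
    {t : Fin (r + 1) → Ω} (htN : ∀ i, t i ∈ N) (hind : AlgebraicIndependent L t)
    (hNt : ∀ z ∈ N, IsAlgebraic (adjoin K (Set.range t)) z)
    (halg : ∀ z : Ω, IsAlgebraic (adjoin K ((L : Set Ω) ∪ N)) z) {x : Pic0 Ω (C.curve Ω)}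
    (hx : ∀ σ : Ω ≃ₐ[K] Ω, (∀ l ∈ L, σ l = l) → (∀ z ∈ N, σ z = z) →
      (specTheory C).act σ x = x) :
    ∃ (M k : IntermediateField K Ω) (_ : IsAlgClosed M) (_ : IsAlgClosed k)
      (a : Pic0 M (C.curve M)) (b : Pic0 N (C.curve N)),
      L ≤ M ∧ k ≤ M ∧ k ≤ N ∧ (∀ i : Fin r, t i.castSucc ∈ k) ∧
      (∀ z ∈ k, IsAlgebraic (adjoin K (Set.range fun i : Fin r => t i.castSucc)) z) ∧
      (∀ z ∈ M, IsAlgebraic
        (adjoin K ((L : Set Ω) ∪ Set.range fun i : Fin r => t i.castSucc)) z) ∧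
      (∀ σ : M ≃ₐ[K] M, (∀ w : M, (w : Ω) ∈ L → σ w = w) → (∀ w : M, (w : Ω) ∈ k → σ w = w) →
        (specTheory C).pic (Spec.ofAlgHom σ.toAlgHom) a = a) ∧
      (specTheory C).pic (Spec.ofAlgHom M.val) a + (specTheory C).pic (Spec.ofAlgHom N.val) b =
        x := by
  set T := specTheory C
  set t' : Fin r → Ω := fun i => t i.castSucc with ht'
  set s := t (Fin.last r)
  obtain ⟨k, hk⟩ : ∃ k, k = acl K (Set.range t') := ⟨_, rfl⟩
  obtain ⟨M, hM⟩ : ∃ M, M = acl K ((L : Set Ω) ∪ Set.range t') := ⟨_, rfl⟩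
  have : IsAlgClosed k := hk ▸ inferInstanceAs (IsAlgClosed (acl K (Set.range t')))
  have : IsAlgClosed M :=
    hM ▸ inferInstanceAs (IsAlgClosed (acl K ((L : Set Ω) ∪ Set.range t')))
  have hmk : ∀ z ∈ k, IsAlgebraic (adjoin K (Set.range t')) z := fun z hz =>
    mem_acl.mp (hk ▸ hz)
  have hmM : ∀ z ∈ M, IsAlgebraic (adjoin K ((L : Set Ω) ∪ Set.range t')) z := fun z hz =>
    mem_acl.mp (hM ▸ hz)
  have htk : ∀ i, t' i ∈ k := fun i => hk ▸ subset_acl (K := K) (Set.range t') ⟨i, rfl⟩
  have hLM : L ≤ M := fun l hl =>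
    hM ▸ subset_acl (K := K) ((L : Set Ω) ∪ Set.range t') (Or.inl hl)
  have htM : ∀ i, t' i ∈ M := fun i =>
    hM ▸ subset_acl (K := K) ((L : Set Ω) ∪ Set.range t') (Or.inr ⟨i, rfl⟩)
  have hkN : k ≤ N := fun w hw => by
    obtain ⟨v, rfl⟩ := mem_range_of_isAlgebraic N.val (S := Set.range t')
      (by rintro _ ⟨i, rfl⟩; exact ⟨⟨_, htN i.castSucc⟩, rfl⟩) (hmk w hw)
    exact v.2
  have hkM : k ≤ M := fun w hw => by
    obtain ⟨v, rfl⟩ := mem_range_of_isAlgebraic M.val (S := Set.range t')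
      (by rintro _ ⟨i, rfl⟩; exact ⟨⟨_, htM i⟩, rfl⟩) (hmk w hw)
    exact v.2
  let Mk : IntermediateField k Ω := IntermediateField.extendScalars hkM
  let Nk : IntermediateField k Ω := IntermediateField.extendScalars hkN
  have : IsAlgClosed Mk := inferInstanceAs (IsAlgClosed M)
  have : IsAlgClosed Nk := inferInstanceAs (IsAlgClosed N)
  -- the last element is transcendental over the others
  have hs : Transcendental Mk s := by
    intro hcon
    set E := adjoin L (Set.range t') with hE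
    have hsM : s ∈ M := (IntermediateField.mem_extendScalars hkM).mp (mem_of_isAlgebraic Mk hcon)
    have h1 : IsAlgebraic E s := isAlgebraic_of_gens (K := K) E (S := (L : Set Ω) ∪ Set.range t')
      (fun w hw => isAlgebraic_of_mem (E := E) (hw.elim (fun h => E.algebraMap_mem ⟨w, h⟩)
        fun h => IntermediateField.subset_adjoin L _ h)) (hmM s hsM)
    have h2 := hind.transcendental_adjoin (s := Set.range (Fin.castSucc (n := r)))
      (i := Fin.last r) (by rintro ⟨i, hi⟩; exact Fin.castSucc_ne_last i hi)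
    rw [← Set.range_comp] at h2
    exact h2 ((IntermediateField.isAlgebraic_adjoin_iff (F := L)).mp h1)
  have hN1 : ∀ z ∈ Nk, IsAlgebraic (adjoin k {s}) z := fun z hz =>
    isAlgebraic_of_gens (K := K) _ (S := Set.range t) (fun w hw => by
      obtain ⟨i, rfl⟩ := hw
      refine isAlgebraic_of_mem ?_
      induction i using Fin.lastCases with
      | last => exact IntermediateField.mem_adjoin_simple_self k _
      | cast i => exact (adjoin k {s}).algebraMap_mem ⟨_, htk i⟩) (hNt z hz)
  have halg1 : ∀ z : Ω, IsAlgebraic (adjoin k ((Mk : Set Ω) ∪ Nk)) z := fun z =>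
    isAlgebraic_of_gens (K := K) _ (fun w hw => isAlgebraic_of_mem
      (IntermediateField.subset_adjoin k _ (hw.imp (fun h => hLM h) fun h => h))) (halg z)
  obtain ⟨a₁, b₁, hab⟩ := exists_split_one (C := C) hg hs (htN (Fin.last r)) hN1 halg1
    (x := x) fun σ hM' hN' => hx σ (fun l hl => hM' l (hLM hl)) hN'
  let eM : Mk →ₐ[K] M :=
    { toFun := fun w => ⟨w.1, w.2⟩
      map_one' := rfl
      map_mul' := fun _ _ => rfl
      map_zero' := rfl
      map_add' := fun _ _ => rfl
      commutes' := fun c => Subtype.ext (IsScalarTower.algebraMap_apply K k Ω c).symm }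
  let eN : Nk →ₐ[K] N :=
    { toFun := fun w => ⟨w.1, w.2⟩
      map_one' := rfl
      map_mul' := fun _ _ => rfl
      map_zero' := rfl
      map_add' := fun _ _ => rfl
      commutes' := fun c => Subtype.ext (IsScalarTower.algebraMap_apply K k Ω c).symm }
  have hab' : T.pic (Spec.ofAlgHom M.val) (T.pic (Spec.ofAlgHom eM) a₁) +
      T.pic (Spec.ofAlgHom N.val) (T.pic (Spec.ofAlgHom eN) b₁) = x :=
    (congrArg₂ (· + ·)
      (pic_pic_eq T eM M.val (Mk.val.restrictScalars K) (fun _ => rfl) a₁)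
      (pic_pic_eq T eN N.val (Nk.val.restrictScalars K) (fun _ => rfl) b₁)).trans hab
  refine ⟨M, k, ‹_›, ‹_›, _, _, hLM, hkM, hkN, htk, hmk, hmM, fun σ hσL hσk => ?_, hab'⟩
  -- extend the automorphism by the identity on `N`
  have hd : Disj k (Mk : Set Ω) (Nk : Set Ω) := by
    refine (disj_of_algebraicIndependent Mk (fun _ : Unit => s)
      ((algebraicIndependent_unique_type_iff).mpr hs) (L := Nk) fun z hz => ?_).symm
    rw [Set.range_const]
    exact (IntermediateField.isAlgebraic_adjoin_iff (F := k)).mp (hN1 z hz)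
  let σk : Mk ≃ₐ[k] Mk :=
    { toFun := fun w => ⟨(σ ⟨w.1, w.2⟩).1, (σ ⟨w.1, w.2⟩).2⟩
      invFun := fun w => ⟨(σ.symm ⟨w.1, w.2⟩).1, (σ.symm ⟨w.1, w.2⟩).2⟩
      left_inv := fun w => Subtype.ext (congrArg Subtype.val (σ.symm_apply_apply ⟨w.1, w.2⟩) :)
      right_inv := fun w => Subtype.ext (congrArg Subtype.val (σ.apply_symm_apply ⟨w.1, w.2⟩) :)
      map_mul' := fun v w => Subtype.ext
        (congrArg Subtype.val (map_mul σ ⟨v.1, v.2⟩ ⟨w.1, w.2⟩) :)
      map_add' := fun v w => Subtype.ext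
        (congrArg Subtype.val (map_add σ ⟨v.1, v.2⟩ ⟨w.1, w.2⟩) :)
      commutes' := fun c => Subtype.ext
        (congrArg Subtype.val (hσk ⟨c.1, hkM c.2⟩ c.2) :) }
  obtain ⟨s₀, hs1, hs2⟩ := exists_aut_fix hd halg1 σk
  let s' : Ω ≃ₐ[K] Ω := s₀.restrictScalars K
  have hsM : ∀ w : M, s' w = (σ w : Ω) := fun w => hs1 ⟨w.1, w.2⟩
  have hfix := hx s' (fun l hl => (hsM ⟨l, hLM hl⟩).trans (by rw [hσL ⟨l, hLM hl⟩ hl])) hs2
  generalize T.pic (Spec.ofAlgHom eM) a₁ = A at hab' ⊢
  generalize T.pic (Spec.ofAlgHom eN) b₁ = B at hab' ⊢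
  have h1 : T.act s' (T.pic (Spec.ofAlgHom M.val) A) =
      T.pic (Spec.ofAlgHom M.val) (T.pic (Spec.ofAlgHom σ.toAlgHom) A) :=
    (T.pic_algHom_comp M.val s'.toAlgHom A).trans
      (pic_pic_eq T σ.toAlgHom M.val (s'.toAlgHom.comp M.val) (fun w => (hsM w).symm) A).symm
  have h2 : T.act s' (T.pic (Spec.ofAlgHom N.val) B) = T.pic (Spec.ofAlgHom N.val) B :=
    T.act_pic N.val s' (fun z => hs2 z z.2) B
  have h3 : T.pic (Spec.ofAlgHom M.val) (T.pic (Spec.ofAlgHom σ.toAlgHom) A) +
      T.pic (Spec.ofAlgHom N.val) B =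
      T.pic (Spec.ofAlgHom M.val) A + T.pic (Spec.ofAlgHom N.val) B :=
    (congrArg₂ (· + ·) h1 h2).symm.trans ((map_add (T.act s') _ _).symm.trans
      ((congrArg (T.act s') hab').trans (hfix.trans hab'.symm)))
  exact T.pic_injective M.val (add_right_cancel h3)

/-- **Classes over two independent closed fields split.** -/
theorem exists_split (C : CurveData K) {Ω : Type u} [Field Ω] [Algebra K Ω] [IsAlgClosed Ω]
    {L N : IntermediateField K Ω} [IsAlgClosed L] [IsAlgClosed N] {r : ℕ} {t : Fin r → Ω}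
    (htN : ∀ i, t i ∈ N) (hind : AlgebraicIndependent L t)
    (hNt : ∀ z ∈ N, IsAlgebraic (adjoin K (Set.range t)) z)
    (halg : ∀ z : Ω, IsAlgebraic (adjoin K ((L : Set Ω) ∪ N)) z) {x : Pic0 Ω (C.curve Ω)}
    (hx : ∀ σ : Ω ≃ₐ[K] Ω, (∀ l ∈ L, σ l = l) → (∀ z ∈ N, σ z = z) →
      (specTheory C).act σ x = x) :
    ∃ a b, (specTheory C).pic (Spec.ofAlgHom L.val) a +
      (specTheory C).pic (Spec.ofAlgHom N.val) b = x := by
  rcases Nat.eq_zero_or_pos C.g with hg | hg
  · exact ⟨0, 0, by rw [map_zero, map_zero, add_zero, eq_zero_of_g hg x]⟩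
  induction r generalizing Ω with
  | zero =>
    have hL : Function.Surjective L.val := fun z => mem_range_of_isAlgebraic L.val
      (S := (L : Set Ω) ∪ N) (by
        rintro w (hw | hw)
        · exact ⟨⟨w, hw⟩, rfl⟩
        · exact mem_range_of_isAlgebraic L.val (S := Set.range t)
            (by rintro _ ⟨i, rfl⟩; exact i.elim0) (hNt w hw)) (halg z)
    obtain ⟨a, ha⟩ := (specTheory C).pic_surjective_of_surjective L.val hL x
    exact ⟨a, 0, by rw [map_zero, add_zero, ha]⟩
  | succ r ih =>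
    obtain ⟨M, k, _, _, a, b, hLM, hkM, hkN, htk, hk, hM, ha, hab⟩ :=
      exists_split_step hg htN hind hNt halg hx
    set T := specTheory C
    let L' : IntermediateField K M := L.comap M.val
    let k' : IntermediateField K M := k.comap M.val
    let eL : L ≃ₐ[K] L' :=
      { toFun := fun l => ⟨⟨l, hLM l.2⟩, l.2⟩
        invFun := fun w => ⟨w.1.1, w.2⟩
        left_inv := fun _ => rfl
        right_inv := fun _ => rfl
        map_mul' := fun _ _ => rfl
        map_add' := fun _ _ => rfl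
        commutes' := fun _ => rfl }
    let ek : k ≃ₐ[K] k' :=
      { toFun := fun l => ⟨⟨l, hkM l.2⟩, l.2⟩
        invFun := fun w => ⟨w.1.1, w.2⟩
        left_inv := fun _ => rfl
        right_inv := fun _ => rfl
        map_mul' := fun _ _ => rfl
        map_add' := fun _ _ => rfl
        commutes' := fun _ => rfl }
    have : IsAlgClosed L' := IsAlgClosed.of_ringEquiv L L' eL.toRingEquiv
    have : IsAlgClosed k' := IsAlgClosed.of_ringEquiv k k' ek.toRingEquiv
    let t' : Fin r → M := fun i => ⟨t i.castSucc, hkM (htk i)⟩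
    have hind' : AlgebraicIndependent L' t' :=
      AlgebraicIndependent.of_ringHom_of_comp_eq (f := eL.symm.toRingEquiv.toRingHom)
        (g := M.val.toRingHom) (hind.comp _ (Fin.castSucc_injective r))
        eL.symm.injective (RingHom.ext fun _ => rfl)
    -- algebraicity inside `M`
    have hdown : ∀ (S : Set M) (S₀ : Set Ω), (∀ w ∈ S₀, ∃ v ∈ S, (v : Ω) = w) → ∀ z : M,
        IsAlgebraic (adjoin K S₀) (z : Ω) → IsAlgebraic (adjoin K S) z := by
      intro S S₀ hS z hz
      obtain ⟨v, hv⟩ := mem_range_of_isAlgebraic (M.val.comp (acl K S).val) (S := S₀)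
        (fun w hw => by
          obtain ⟨v, hv, rfl⟩ := hS w hw
          exact ⟨⟨v, subset_acl (K := K) S hv⟩, rfl⟩) hz
      have e : (v : M) = z := Subtype.ext hv
      exact e ▸ mem_acl.mp v.2
    have hNt' : ∀ z ∈ k', IsAlgebraic (adjoin K (Set.range t')) z := fun z hz =>
      hdown (Set.range t') (Set.range fun i : Fin r => t i.castSucc) (fun w hw => by
        obtain ⟨i, rfl⟩ := hw
        exact ⟨t' i, ⟨i, rfl⟩, rfl⟩) z (hk (z : Ω) hz)
    have halg' : ∀ z : M, IsAlgebraic (adjoin K ((L' : Set M) ∪ (k' : Set M))) z := fun z =>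
      hdown _ ((L : Set Ω) ∪ Set.range fun i : Fin r => t i.castSucc) (fun w hw => by
        rcases hw with hw | ⟨i, rfl⟩
        · exact ⟨⟨w, hLM hw⟩, Or.inl hw, rfl⟩
        · exact ⟨t' i, Or.inr (htk i), rfl⟩) z (hM (z : Ω) z.2)
    obtain ⟨a', b', hab'⟩ := ih (Ω := M) (L := L') (N := k') (t := t') (fun i => htk i) hind'
      hNt' halg'
      (x := a) (fun σ h h' => ha σ (fun w hw => h w hw) fun w hw => h' w hw)
    let eN : k' →ₐ[K] N := (IntermediateField.inclusion hkN).comp ek.symm.toAlgHom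
    refine ⟨T.pic (Spec.ofAlgHom eL.symm.toAlgHom) a', b + T.pic (Spec.ofAlgHom eN) b', ?_⟩
    have e1 : T.pic (Spec.ofAlgHom L.val) (T.pic (Spec.ofAlgHom eL.symm.toAlgHom) a') =
        T.pic (Spec.ofAlgHom M.val) (T.pic (Spec.ofAlgHom L'.val) a') :=
      (pic_pic_eq T eL.symm.toAlgHom L.val (M.val.comp L'.val) (fun _ => rfl) a').trans
        (T.pic_algHom_comp L'.val M.val a').symm
    have e2 : T.pic (Spec.ofAlgHom N.val) (T.pic (Spec.ofAlgHom eN) b') =
        T.pic (Spec.ofAlgHom M.val) (T.pic (Spec.ofAlgHom k'.val) b') :=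
      (pic_pic_eq T eN N.val (M.val.comp k'.val) (fun _ => rfl) b').trans
        (T.pic_algHom_comp k'.val M.val b').symm
    refine (congrArg (_ + ·) (map_add (T.pic (Spec.ofAlgHom N.val)) b _)).trans
      (add_regroup hab ?_)
    exact (congrArg₂ (· + ·) e1 e2).trans
      ((map_add (T.pic (Spec.ofAlgHom M.val)) _ _).symm.trans (congrArg _ hab'))

end Fermat.Agent.Row25.Split

end
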