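import Fermat.Agent.Row25.AV.Split.Families

/-!
# Certificates for the degree of a family

A family `u` has a complementary family `V` such that the products `u_i V_l / r` generate, with
explicit coefficients, the functions of a higher level. These identities survive specialisation
and determine the values of `u` and `V` at every valuation ring containing the coefficients.
-/

set_option autoImplicit false

noncomputable section

open AlgebraicCurve Module

namespace Fermat.Agent.Row25.Split

open Fermat.Agent.Row27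

universe u

variable {K : Type u} [Field K] (C : CurveData K)

/-- The levels are nonempty. -/
theorem nonempty_idx [IsAlgClosed K] (b : ℕ) : Nonempty (C.Idx b) := by
  by_contra h
  rw [not_nonempty_iff] at h
  have h1 := C.realF_one K b
  rw [show (fun i => algebraMap K K (C.one b i)) = 0 from funext fun i => h.elim i, map_zero] at h1
  exact zero_ne_one h1

section Algebra

variable {L : Type u} [Field L] [Algebra K L] [IsAlgClosed L] {ι : Type*} [Fintype ι] {b : ℕ}

/-- **Every family has a certificate.** -/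
theorem exists_cert {u : ι → C.Idx b → L} (hu : u ≠ 0) :
    ∃ (e m M q d : ℕ) (V : Fin d → C.Idx e → L) (r : C.Idx m → L)
      (xR : ι × Fin d → C.Idx M → L) (a : C.Idx (M + q) → ι × Fin d → C.Idx q → L),
      V ≠ 0 ∧ r ≠ 0 ∧
      (∀ p, C.realF L b (u p.1) * C.realF L e (V p.2) =
        C.realF L m r * C.realF L M (xR p)) ∧
      ∀ j, C.realF L (M + q) (Pi.single j 1) =
        ∑ p, C.realF L M (xR p) * C.realF L q (a j p) := by
  classical
  have rr := C.rr L
  set E := zc C u with hE
  have hE0 : 0 ≤ E := (isZc_zc hu).1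
  have hEd0 := rr.degree_nonneg hE0
  have hEb : Divisor.degree E ≤ b := by
    have := ht_nonneg hu
    rw [ht, ← hE] at this
    omega
  obtain ⟨m, hm⟩ : ∃ m : ℕ, (m : ℤ) = 2 * C.g + 1 + Divisor.degree E :=
    ⟨(2 * (C.g : ℤ) + 1 + Divisor.degree E).toNat, Int.toNat_of_nonneg (by omega)⟩
  have hdegD : ∀ (n : ℤ) (D : Divisor L (C.curve L)),
      Divisor.degree (C.binf L n - D) = n - Divisor.degree D := fun n D => by
    rw [map_sub, CurveData.binf, (C.rr L).degree_single]
  have hne : riemannRochSpace (C.binf L (m : ℤ) - E) ≠ ⊥ := fun e => by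
    have := (C.rr L).dim_eq (C.binf L (m : ℤ) - E) (by rw [hdegD, C.rr_g]; omega)
    rw [e, finrank_bot, hdegD, C.rr_g] at this
    omega
  obtain ⟨_, hrmem, hr0⟩ := (Submodule.ne_bot_iff _).mp hne
  obtain ⟨r, hrW, rfl⟩ := C.exists_eq_realF L hE0 hrmem
  set E' := (C.rr L).divisor hr0 + C.binf L (m : ℤ) - E with hE'
  have hE'0 : 0 ≤ E' := sub_nonneg.mpr ((mem_W_iff_le C hr0).mp hrW)
  have hE'd : Divisor.degree E' = 2 * C.g + 1 := by
    rw [hE', map_sub, map_add, (C.rr L).degree_divisor, CurveData.binf, (C.rr L).degree_single]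
    omega
  set e := 4 * C.g + 2 with he
  obtain ⟨M, hM⟩ : ∃ M : ℕ, (M : ℤ) = b + e - m :=
    ⟨((b : ℤ) + e - m).toNat, Int.toNat_of_nonneg (by omega)⟩
  have hV := Module.finBasis L (C.W L e E')
  set d := finrank L (C.W L e E') with hd
  set V : Fin d → C.Idx e → L := fun l => (hV l : C.Idx e → L) with hVdef
  -- some member of `V` has the exact order at a place
  have hVord : ∀ v : Place L (C.curve L), ∃ l, V l ≠ 0 ∧
      v.ord (C.realF L e (V l)) = E' v - C.binf L (e : ℤ) v := by
    intro v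
    have hdeg : 2 * ((C.rr L).g : ℤ) < Divisor.degree (C.binf L (e : ℤ) - E') := by
      rw [hdegD, C.rr_g]; omega
    obtain ⟨f, hf, hfv⟩ := SetLike.not_le_iff_exists.mp ((C.rr L).Lsp_sub_single_ne _ v hdeg)
    obtain ⟨x, hx, rfl⟩ := C.exists_eq_realF L hE'0 hf
    by_contra hcon
    push Not at hcon
    refine hfv ?_
    have hspan : ∀ l, C.realF L e (V l) ∈
        riemannRochSpace (C.binf L (e : ℤ) - E' - Finsupp.single v 1) := by
      intro l
      rcases eq_or_ne (V l) 0 with h | h
      · rw [h, map_zero]; exact zero_mem _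
      rw [MWJ0.mem_Lsp_of_ne_zero (C.realF_ne_zero L h)]
      intro w
      have h1 := (MWJ0.mem_Lsp_of_ne_zero (C.realF_ne_zero L h)).mp
        ((C.mem_W L).mp (hV l).2) w
      simp only [Finsupp.sub_apply] at h1 ⊢
      rcases eq_or_ne w v with rfl | hw
      · have h2 := hcon l h
        rw [Finsupp.single_eq_same]
        omega
      · rw [Finsupp.single_eq_of_ne hw]
        omega
    have hsum : x = ∑ l, hV.repr ⟨x, hx⟩ l • V l := by
      have h1 := congrArg Subtype.val (hV.sum_repr ⟨x, hx⟩)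
      rw [Submodule.coe_sum] at h1
      exact h1.symm
    rw [hsum, map_sum]
    exact Submodule.sum_mem _ fun l _ => by
      rw [map_smul]; exact Submodule.smul_mem _ _ (hspan l)
  have hV0 : V ≠ 0 := fun h => by
    obtain ⟨l, hl, -⟩ := hVord (C.inf L)
    exact hl (congrFun h l)
  -- the quotients
  set f : ι × Fin d → C.curve L := fun p =>
    C.realF L b (u p.1) * C.realF L e (V p.2) / C.realF L m r with hf
  set B : Divisor L (C.curve L) := C.binf L (M : ℤ) with hB
  have hBv : ∀ v, B v + C.binf L (m : ℤ) v = C.binf L (b : ℤ) v + C.binf L (e : ℤ) v := fun v => by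
    simp only [hB, CurveData.binf]
    rw [← Finsupp.add_apply, ← Finsupp.add_apply, ← Finsupp.single_add, ← Finsupp.single_add, hM,
      sub_add_cancel]
  have hrv : ∀ v, v.ord (C.realF L m r) = E v + E' v - C.binf L (m : ℤ) v := fun v => by
    rw [hE', Finsupp.sub_apply, Finsupp.add_apply, (C.rr L).divisor_apply]
    ring
  have hford : ∀ p : ι × Fin d, u p.1 ≠ 0 → V p.2 ≠ 0 → ∀ v : Place L (C.curve L), v.ord (f p) =
      v.ord (C.realF L b (u p.1)) + v.ord (C.realF L e (V p.2)) - v.ord (C.realF L m r) := by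
    intro p hp hp' v
    simp only [hf]
    rw [div_eq_mul_inv, v.ord_mul (mul_ne_zero (C.realF_ne_zero L hp) (C.realF_ne_zero L hp'))
      (inv_ne_zero hr0), v.ord_mul (C.realF_ne_zero L hp) (C.realF_ne_zero L hp'), v.ord_inv]
    ring
  have hfmem : ∀ p, f p ∈ riemannRochSpace B := by
    intro p
    rcases eq_or_ne (u p.1) 0 with hp | hp
    · rw [hf]; simp only [hp, map_zero, zero_mul, zero_div]; exact zero_mem _
    rcases eq_or_ne (V p.2) 0 with hp' | hp'
    · rw [hf]; simp only [hp', map_zero, mul_zero, zero_div]; exact zero_mem _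
    rw [MWJ0.mem_Lsp_of_ne_zero (div_ne_zero (mul_ne_zero (C.realF_ne_zero L hp)
      (C.realF_ne_zero L hp')) hr0)]
    intro v
    rw [hford p hp hp', hrv]
    have h1 := zc_le_ord hu hp v
    have h2 := (MWJ0.mem_Lsp_of_ne_zero (C.realF_ne_zero L hp')).mp ((C.mem_W L).mp (hV p.2).2) v
    have h3 := hBv v
    rw [Finsupp.sub_apply] at h2
    rw [← hE] at h1
    omega
  have hxR : ∀ p, ∃ x, C.realF L M x = f p := fun p =>
    LinearMap.mem_range.mp (by rw [C.range_realF]; exact hfmem p)
  choose xR hxR using hxR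
  -- the products with a high level are all functions
  set W0 : Submodule L (C.curve L) := Submodule.span L (Set.range f) with hW0
  have hW0B : W0 ≤ riemannRochSpace B := Submodule.span_le.mpr (Set.range_subset_iff.mpr hfmem)
  have hW0v : ∀ v, ¬ W0 ≤ riemannRochSpace (B - Finsupp.single v 1) := by
    intro v hle
    obtain ⟨i, hi, hiv⟩ := exists_ord_eq_zc hu v
    obtain ⟨l, hl, hlv⟩ := hVord v
    have h0 : f (i, l) ≠ 0 := div_ne_zero
      (mul_ne_zero (C.realF_ne_zero L hi) (C.realF_ne_zero L hl)) hr0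
    have h1 := (MWJ0.mem_Lsp_of_ne_zero h0).mp (hle (Submodule.subset_span ⟨(i, l), rfl⟩)) v
    rw [hford (i, l) hi hl, hiv, hlv, hrv, ← hE, Finsupp.sub_apply, Finsupp.single_eq_same] at h1
    have h3 := hBv v
    omega
  have hW0ne : W0 ≠ ⊥ := fun h => hW0v (C.inf L) (h ▸ bot_le)
  obtain ⟨w₁, h1, w₂, h2, hp⟩ := (C.rr L).exists_pencil W0 hW0v hW0B hW0ne
  set q := M + 2 * C.g with hq
  have hspan := (C.rr L).pencil_span hp (B := C.binf L (q : ℤ))
    (by rw [hB, CurveData.binf, CurveData.binf, (C.rr L).degree_single, (C.rr L).degree_single,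
      C.rr_g]; omega)
    (by rw [hB, CurveData.binf, (C.rr L).degree_single]; omega)
  have hcoef : ∀ j, ∃ a : ι × Fin d → C.Idx q → L, C.realF L (M + q) (Pi.single j 1) =
      ∑ p, f p * C.realF L q (a p) := by
    intro j
    have hmem : C.realF L (M + q) (Pi.single j 1) ∈
        riemannRochSpace (B + C.binf L (q : ℤ)) := by
      rw [hB, C.binf_add L rfl]
      exact (C.range_realF L (M + q)).le ⟨_, rfl⟩
    rw [← hspan, Submodule.mem_sup] at hmem
    obtain ⟨_, ⟨g₁, hg₁, rfl⟩, _, ⟨g₂, hg₂, rfl⟩, hsum⟩ := hmem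
    rw [SetLike.mem_coe, CurveData.binf, ← C.range_realF] at hg₁ hg₂
    obtain ⟨y₁, rfl⟩ := hg₁
    obtain ⟨y₂, rfl⟩ := hg₂
    obtain ⟨c₁, hc₁⟩ := (Submodule.mem_span_range_iff_exists_fun L).mp h1
    obtain ⟨c₂, hc₂⟩ := (Submodule.mem_span_range_iff_exists_fun L).mp h2
    refine ⟨fun p => c₁ p • y₁ + c₂ p • y₂, ?_⟩
    rw [← hsum, LinearMap.mulLeft_apply, LinearMap.mulLeft_apply, ← hc₁, ← hc₂, Finset.sum_mul,
      Finset.sum_mul, ← Finset.sum_add_distrib]
    refine Finset.sum_congr rfl fun p _ => ?_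
    rw [map_add, map_smul, map_smul, mul_add, smul_mul_assoc, smul_mul_assoc, mul_smul_comm,
      mul_smul_comm]
  choose a ha using hcoef
  refine ⟨e, m, M, q, d, V, r, xR, a, hV0, fun h => hr0 (by rw [h, map_zero]), fun p => ?_,
    fun j => ?_⟩
  · rw [hxR, hf, mul_div_cancel₀ _ hr0]
  · rw [ha j]
    exact Finset.sum_congr rfl fun p _ => by rw [hxR]

end Algebra

section Values

variable [IsAlgClosed K] {Ω : Type u} [Field Ω] [Algebra K Ω] (em : C.curve K →ₐ[K] Ω)
  {L : Type u} [Field L] [Algebra K L] (ψ : L →ₐ[K] Ω)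

theorem evV_single (b : ℕ) (j : C.Idx b) :
    evV C em ψ b (Pi.single j 1) = basV C em b j := by
  rw [evV, Finset.sum_eq_single j (fun i _ hi => by rw [Pi.single_eq_of_ne hi, map_zero, zero_mul])
    (fun h => absurd (Finset.mem_univ j) h), Pi.single_eq_same, map_one, one_mul]

theorem basV_ne_zero (b : ℕ) : basV C em b ≠ 0 := fun h => one_ne_zero (α := Ω) (by
  rw [← evV_one C em (Algebra.ofId K Ω) b, evV]
  simp [h])

variable {ι κ : Type*} [Fintype ι] [Nonempty ι] [Fintype κ] [Nonempty κ]

/-- **A certificate determines the values.** -/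
theorem vmax_of_cert {b e m M q : ℕ} (u : ι → C.Idx b → L) (V : κ → C.Idx e → L)
    (r : C.Idx m → L) (xR : ι × κ → C.Idx M → L) (a : C.Idx (M + q) → ι × κ → C.Idx q → L)
    (h1 : ∀ p, evV C em ψ b (u p.1) * evV C em ψ e (V p.2) =
      evV C em ψ m r * evV C em ψ M (xR p))
    (h2 : ∀ j, basV C em (M + q) j = ∑ p, evV C em ψ M (xR p) * evV C em ψ q (a j p))
    (A : ValuationSubring Ω) (hA : ∀ l, ψ l ∈ A) :
    haveI := nonempty_idx C M
    vmax A (fun i => evV C em ψ b (u i)) * vmax A (fun i => evV C em ψ e (V i)) =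
      A.valuation (evV C em ψ m r) * vmax A (basV C em M) := by
  have := nonempty_idx C M
  have := nonempty_idx C q
  have := nonempty_idx C (M + q)
  rw [← vmax_eq_of_cert A (e' := basV C em q) (e'' := basV C em (M + q))
      (R := fun p : ι × κ => evV C em ψ M (xR p)) (x := fun p j => ψ (xR p j))
      (basV_ne_zero C em q) (fun _ _ => hA _) (fun _ => rfl)
      (a := fun j p l => ψ (a j p l)) (fun _ _ _ => hA _) (fun j => h2 j)
      (m := fun i j l => algebraMap K Ω (C.sc M q (M + q) i j l))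
      (fun i j l => ψ.commutes (C.sc M q (M + q) i j l) ▸ hA _) fun i j => ?_]
  · rw [← vmax_smul, ← CurveData.vmax_prod]
    congr 1
    funext p
    exact h1 p
  · rw [basV, basV, ← map_mul, ← C.realF_mul K M q (M + q) le_rfl, em_realF]
    refine Finset.sum_congr rfl fun l _ => ?_
    congr 2
    simp [mulVec, Pi.single_apply, Finset.sum_ite_eq', mul_ite]

end Values

end Fermat.Agent.Row25.Split

end
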