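import Fermat.Agent.Row25.AV.Split.Descent
import Fermat.Agent.Row27.Theta

/-!
# Classes over the compositum of a closed field and a field of transcendence degree one

A class fixed over both fields is the sum of its specialisation fixing the second field and a
class without degree, which is a class of the first field.
-/

set_option autoImplicit false

noncomputable section

open AlgebraicCurve Module
open IntermediateField (adjoin)

namespace Fermat.Agent.Row25.Split

open Fermat.Agent.Row27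

universe u

variable {K : Type u} [Field K] {C : CurveData K}

/-- The theta vector of the image of a class. -/
theorem theta_pic {T : SpecTheory C} (Th : ThetaTheory C T) {L L' : Type u} [Field L] [Algebra K L]
    [IsAlgClosed L] [Field L'] [Algebra K L'] [IsAlgClosed L'] (ψ : L →ₐ[K] L')
    (z : Pic0 L (C.curve L)) :
    ∃ c : L', c ≠ 0 ∧ ∀ i,
      Th.theta L' (T.pic (Spec.ofAlgHom ψ) z) i = c * ψ (Th.theta L z i) := by
  obtain ⟨s, ⟨a, ha, hs⟩, ⟨b, hb, hs'⟩⟩ := Th.theta_spec (Spec.ofAlgHom ψ) z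
  refine ⟨ψ a / b, div_ne_zero ((map_ne_zero ψ).mpr ha) hb, fun i => ?_⟩
  have h1 := congrFun hs i
  have h2 := congrFun hs' i
  change ψ (s i : L) = b * _ at h2
  change (s i : L) = a * _ at h1
  rw [h1, map_mul] at h2
  rw [div_mul_eq_mul_div, h2, mul_div_cancel_left₀ _ hb]

variable {k : Type u} [Field k] [Algebra K k] {Ω : Type u} [Field Ω] [Algebra K Ω] [Algebra k Ω]
  [IsScalarTower K k Ω] [IsAlgClosed Ω] {L N : IntermediateField k Ω} [IsAlgClosed L]
  [IsAlgClosed N]

/-- The class is fixed over the two fields. -/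
def IsFix (C : CurveData K) (L N : IntermediateField k Ω) (y : Pic0 Ω (C.curve Ω)) : Prop :=
  ∀ σ : Ω ≃ₐ[K] Ω, (∀ l ∈ L, σ l = l) → (∀ z ∈ N, σ z = z) → (specTheory C).act σ y = y

omit [IsAlgClosed L] [IsAlgClosed N] in
omit [Algebra K k] [IsScalarTower K k Ω] in
theorem IsFix.add {y z : Pic0 Ω (C.curve Ω)} (hy : IsFix C L N y) (hz : IsFix C L N z) :
    IsFix C L N (y + z) := fun σ h h' => by rw [map_add, hy σ h h', hz σ h h']

omit [IsAlgClosed L] [IsAlgClosed N] in
omit [Algebra K k] [IsScalarTower K k Ω] in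
theorem IsFix.sub {y z : Pic0 Ω (C.curve Ω)} (hy : IsFix C L N y) (hz : IsFix C L N z) :
    IsFix C L N (y - z) := fun σ h h' => by rw [map_sub, hy σ h h', hz σ h h']

omit [IsAlgClosed L] in
theorem isFix_pic (y : Pic0 N (C.curve N)) :
    IsFix C L N ((specTheory C).pic (Spec.ofAlgHom (N.val.restrictScalars K)) y) :=
  fun σ _ h => (specTheory C).act_pic (N.val.restrictScalars K) σ (fun z => h z z.2) y

/-- The normalised theta vector of a fixed class lies in the compositum. -/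
theorem IsFix.nrm_mem (halg : ∀ z : Ω, IsAlgebraic (adjoin k ((L : Set Ω) ∪ N)) z)
    {y : Pic0 Ω (C.curve Ω)} (hy : IsFix C L N y) (i : C.TIdx) :
    (thetaTheory C (specTheory C)).nrm y i ∈ adjoin k ((L : Set Ω) ∪ N) :=
  mem_compositum_of_fixed K halg fun σ h h' => by
    rw [← (thetaTheory C (specTheory C)).nrm_act σ y i, hy σ h h']

omit [IsAlgClosed Ω] [IsAlgClosed L] [IsAlgClosed N] in
theorem map_ne_zero_of_inv_mem {F k' : Type u} [Field F] [Algebra k F] [Field k'] [Algebra k k']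
    (φ : Spec k F k') {a : F} (ha0 : a ≠ 0) (ha : a ∈ φ.dom) (hi : a⁻¹ ∈ φ.dom) :
    φ.map ⟨a, ha⟩ ≠ 0 := fun h =>
  (φ.map_eq_zero _).mp h (isUnit_iff_exists_inv.mpr ⟨⟨_, hi⟩, Subtype.ext (mul_inv_cancel₀ ha0)⟩)

variable [IsAlgClosed k]

/-- **The comparison of a class with its specialisation.** -/
theorem exists_comparison (hd : Disj k (L : Set Ω) (N : Set Ω)) {t : Ω}
    (ht : Transcendental k t) (htN : t ∈ N)
    (hN : ∀ z ∈ N, IsAlgebraic (adjoin k {t}) z)
    (halg : ∀ z : Ω, IsAlgebraic (adjoin k ((L : Set Ω) ∪ N)) z) {x : Pic0 Ω (C.curve Ω)}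
    (hx : IsFix C L N x) :
    ∃ (φ : Spec k L k) (Φ : Spec k Ω N) (n d : ℕ) (_ : Nonempty (Fin n)) (_ : Nonempty (Fin d))
      (W : Fin d → Φ.dom) (Z : Fin n → Ω) (c cb : Ω),
      Extends L.val φ Φ ∧ (fun i => Φ.map (W i)) ≠ 0 ∧ Z ≠ 0 ∧ (∀ i, Z i ∈ N) ∧
      (∀ i, (W i : Ω) ∈ adjoin k ((L : Set Ω) ∪ N)) ∧ c ≠ 0 ∧ cb ≠ 0 ∧
      ∀ A : ValuationSubring Ω, TrivOn k A → (∀ l, L.val l ∈ A) →
        vmax A ((thetaTheory C (specTheory C)).theta Ω x) * vmax A (fun i => (W i : Ω)) =
            A.valuation c * vmax A Z ∧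
        vmax A ((thetaTheory C (specTheory C)).theta Ω
            ((specTheory C).pic (Spec.ofAlgHom (N.val.restrictScalars K))
              ((specTheory C).pic (restrictBase K Φ) x))) *
          vmax A (fun i => ((Φ.map (W i) : N) : Ω)) = A.valuation cb * vmax A Z := by
  classical
  set Th := thetaTheory C (specTheory C)
  obtain ⟨S, hSN, hS⟩ := exists_finset_compositum (Th.nrm x) (hx.nrm_mem halg)
  obtain ⟨C1, em, hemN, -, hmod⟩ := exists_model_sub ht htN hN halg S hSN
  have hd1 : Disj k (Set.range L.val) (Set.range em) :=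
    hd.mono (by rintro _ ⟨l, rfl⟩; exact l.2) hemN
  obtain ⟨-, hmem⟩ := hmod hd1
  obtain ⟨b, u, c₀, hc₀, hu⟩ := hasFam_of_mem em L.val hd1
    (c := (Th.theta Ω x (Th.idx x))⁻¹) (inv_ne_zero (Th.theta_idx x)) fun i => by
      rw [← div_eq_inv_mul]
      exact hmem _ (hS i)
  have hu0 := fam_ne_zero em L.val (Th.theta_ne_zero Ω x) hc₀ hu
  obtain ⟨e, m, M, q, d, V, r, xR, a, hV0, hr0, hcert1, hcert2⟩ := exists_cert C1 hu0
  obtain ⟨iu, hiu⟩ := Function.ne_iff.mp hu0
  obtain ⟨lu, hlu⟩ := Function.ne_iff.mp hiu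
  obtain ⟨iV, hiV⟩ := Function.ne_iff.mp hV0
  obtain ⟨lV, hlV⟩ := Function.ne_iff.mp hiV
  obtain ⟨lr, hlr⟩ := Function.ne_iff.mp hr0
  have : Nonempty (Fin d) := ⟨iV⟩
  have : Nonempty (C1.Idx M) := nonempty_idx C1 M
  -- the identities in `Ω`
  have h1 : ∀ p, evV C1 em L.val b (u p.1) * evV C1 em L.val e (V p.2) =
      evV C1 em L.val m r * evV C1 em L.val M (xR p) := fun p => by
    have h := congrArg (iota C1 em L.val hd1) (hcert1 p)
    simpa only [map_mul, iota_realF] using h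
  have h2 : ∀ j, basV C1 em (M + q) j =
      ∑ p, evV C1 em L.val M (xR p) * evV C1 em L.val q (a j p) := fun j => by
    have h := congrArg (iota C1 em L.val hd1) (hcert2 j)
    simpa only [map_mul, map_sum, iota_realF, evV_single] using h
  -- a specialisation defined at all coefficients
  set Sc : Finset L :=
    (Finset.univ.image fun p : C.TIdx × C1.Idx b => u p.1 p.2) ∪
    (Finset.univ.image fun p : Fin d × C1.Idx e => V p.1 p.2) ∪
    Finset.univ.image r ∪
    (Finset.univ.image fun p : (C.TIdx × Fin d) × C1.Idx M => xR p.1 p.2) ∪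
    (Finset.univ.image fun p : (C1.Idx (M + q) × (C.TIdx × Fin d)) × C1.Idx q =>
      a p.1.1 p.1.2 p.2) ∪
    {(u iu lu)⁻¹, (V iV lV)⁻¹, (r lr)⁻¹} with hSc
  obtain ⟨φ, hφ⟩ := exists_spec_finset (K := k) Sc
  have hu' : ∀ i l, u i l ∈ φ.dom := fun i l => hφ _
    (Finset.mem_union_left _ (Finset.mem_union_left _ (Finset.mem_union_left _
      (Finset.mem_union_left _ (Finset.mem_union_left _
        (Finset.mem_image.mpr ⟨(i, l), Finset.mem_univ _, rfl⟩))))))
  have hV' : ∀ i l, V i l ∈ φ.dom := fun i l => hφ _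
    (Finset.mem_union_left _ (Finset.mem_union_left _ (Finset.mem_union_left _
      (Finset.mem_union_left _ (Finset.mem_union_right _
        (Finset.mem_image.mpr ⟨(i, l), Finset.mem_univ _, rfl⟩))))))
  have hr' : ∀ l, r l ∈ φ.dom := fun l => hφ _
    (Finset.mem_union_left _ (Finset.mem_union_left _ (Finset.mem_union_left _
      (Finset.mem_union_right _ (Finset.mem_image.mpr ⟨l, Finset.mem_univ _, rfl⟩)))))
  have hx' : ∀ p l, xR p l ∈ φ.dom := fun p l => hφ _
    (Finset.mem_union_left _ (Finset.mem_union_left _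
      (Finset.mem_union_right _ (Finset.mem_image.mpr ⟨(p, l), Finset.mem_univ _, rfl⟩))))
  have ha' : ∀ j p l, a j p l ∈ φ.dom := fun j p l => hφ _
    (Finset.mem_union_left _
      (Finset.mem_union_right _ (Finset.mem_image.mpr ⟨((j, p), l), Finset.mem_univ _, rfl⟩)))
  have hui : (u iu lu)⁻¹ ∈ φ.dom := hφ _ (Finset.mem_union_right _ (by simp))
  have hVi : (V iV lV)⁻¹ ∈ φ.dom := hφ _ (Finset.mem_union_right _ (by simp))
  have hri : (r lr)⁻¹ ∈ φ.dom := hφ _ (Finset.mem_union_right _ (by simp))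
  obtain ⟨Φ, hX⟩ := exists_extends hd φ
  choose mu emu using fun i => hX.map_evV em hemN fun l => (⟨u i l, hu' i l⟩ : φ.dom)
  choose mV emV using fun i => hX.map_evV em hemN fun l => (⟨V i l, hV' i l⟩ : φ.dom)
  obtain ⟨mr, emr⟩ := hX.map_evV em hemN fun l => (⟨r l, hr' l⟩ : φ.dom)
  choose mx emx using fun p => hX.map_evV em hemN fun l => (⟨xR p l, hx' p l⟩ : φ.dom)
  choose ma ema using fun j p => hX.map_evV em hemN fun l => (⟨a j p l, ha' j p l⟩ : φ.dom)
  let ub : C.TIdx → C1.Idx b → k := fun i l => φ.map ⟨u i l, hu' i l⟩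
  let Vb : Fin d → C1.Idx e → k := fun i l => φ.map ⟨V i l, hV' i l⟩
  let rb : C1.Idx m → k := fun l => φ.map ⟨r l, hr' l⟩
  have eub : ∀ i, ((Φ.map ⟨_, mu i⟩ : N) : Ω) = evV C1 em (Algebra.ofId k Ω) b (ub i) := emu
  have eVb : ∀ i, ((Φ.map ⟨_, mV i⟩ : N) : Ω) = evV C1 em (Algebra.ofId k Ω) e (Vb i) := emV
  have erb : ((Φ.map ⟨_, mr⟩ : N) : Ω) = evV C1 em (Algebra.ofId k Ω) m rb := emr
  have hd0 : Disj k (Set.range (Algebra.ofId k Ω)) (Set.range em) := disj_ofId em (hd := hd1)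
  have hub0 : ub ≠ 0 := fun h => map_ne_zero_of_inv_mem φ hlu _ hui (congrFun (congrFun h iu) lu)
  have hVb0 : Vb ≠ 0 := fun h => map_ne_zero_of_inv_mem φ hlV _ hVi (congrFun (congrFun h iV) lV)
  have hrb0 : rb ≠ 0 := fun h => map_ne_zero_of_inv_mem φ hlr _ hri (congrFun h lr)
  have hbasN : ∀ {n : ℕ} (j : C1.Idx n), basV C1 em n j ∈ N := fun j => hemN ⟨_, rfl⟩
  -- the reduced identities
  have h1' : ∀ p, evV C1 em (Algebra.ofId k Ω) b (ub p.1) * evV C1 em (Algebra.ofId k Ω) e (Vb p.2)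
      =
      evV C1 em (Algebra.ofId k Ω) m rb * evV C1 em (Algebra.ofId k Ω) M
          (fun l => φ.map ⟨xR p l, hx' p l⟩) := fun p => by
    have h : (⟨_, mu p.1⟩ : Φ.dom) * ⟨_, mV p.2⟩ = ⟨_, mr⟩ * ⟨_, mx p⟩ := Subtype.ext (h1 p)
    have h' := congrArg (fun z : Φ.dom => N.val (Φ.map z)) h
    simp only [map_mul] at h'
    rw [← eub p.1, ← eVb p.2, ← erb, ← emx p]
    exact h'
  have h2' : ∀ j, basV C1 em (M + q) j = ∑ p, evV C1 em (Algebra.ofId k Ω) M
      (fun l => φ.map ⟨xR p l, hx' p l⟩) *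
      evV C1 em (Algebra.ofId k Ω) q (fun l => φ.map ⟨a j p l, ha' j p l⟩) := fun j => by
    have h : (⟨_, hX.mem_N ⟨_, hbasN j⟩⟩ : Φ.dom) = ∑ p, ⟨_, mx p⟩ * ⟨_, ma j p⟩ :=
      Subtype.ext (by
        show _ = Φ.dom.subtype _
        simp only [map_sum, map_mul]
        exact h2 j)
    have h' := congrArg (fun z : Φ.dom => N.val (Φ.map z)) h
    simp only [map_mul, map_sum, hX.map_N ⟨_, hbasN j⟩] at h'
    refine h'.trans (Finset.sum_congr rfl fun p _ => ?_)
    rw [← emx p, ← ema j p]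
    rfl
  -- the reduced family belongs to the specialised class
  obtain ⟨s, ⟨α, hα, hs⟩, ⟨β, hβ, hs'⟩⟩ := Th.theta_spec (restrictBase K Φ) x
  set xb := (specTheory C).pic (restrictBase K Φ) x
  obtain ⟨c₁, hc₁, hxb⟩ := theta_pic Th (N.val.restrictScalars K) xb
  have hsU : ∀ i, ((s i : Ω)) = α / c₀ * evV C1 em L.val b (u i) := fun i => by
    rw [hu, congrFun hs i, Pi.smul_apply, smul_eq_mul]
    field_simp
  have himU : (fun i => Φ.map ⟨_, mu i⟩) ≠ 0 := fun h => hub0 (funext fun i =>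
    evV_injective C1 em _ hd0 (by rw [← eub i]; exact congrArg Subtype.val (congrFun h i)))
  have hims : (fun i => Φ.map (s i)) ≠ 0 := fun h => Th.theta_ne_zero N xb (funext fun i => by
    have h3 : Φ.map (s i) = β * Th.theta N xb i := congrFun hs' i
    exact (mul_eq_zero.mp (h3.symm.trans (congrFun h i))).resolve_left hβ)
  obtain ⟨γ, hγ, hγs⟩ := propTo_map Φ (U := fun i => ⟨_, mu i⟩) hsU hims himU
  set cu : Ω := (β : Ω) / (γ * c₁)
  have hγ' : (γ : Ω) ≠ 0 := fun h => hγ (Subtype.ext h)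
  have hβ' : (β : Ω) ≠ 0 := fun h => hβ (Subtype.ext h)
  have hcu : cu ≠ 0 := div_ne_zero hβ' (mul_ne_zero hγ' hc₁)
  have hubf : ∀ i, evV C1 em (Algebra.ofId k Ω) b (ub i) = cu *
      Th.theta Ω ((specTheory C).pic (Spec.ofAlgHom (N.val.restrictScalars K)) xb) i := fun i => by
    have h3 : Φ.map (s i) = β * Th.theta N xb i := congrFun hs' i
    have h4 := congrArg Subtype.val ((hγs i).symm.trans h3)
    change (γ : Ω) * _ = (β : Ω) * _ at h4
    rw [eub i] at h4
    rw [hxb i]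
    show evV C1 em (Algebra.ofId k Ω) b (ub i) = cu * (c₁ * (Th.theta N xb i : Ω))
    simp only [cu]
    field_simp
    linear_combination h4
  have hWmem : ∀ i, evV C1 em L.val e (V i) ∈ adjoin k ((L : Set Ω) ∪ N) := fun i => by
    rw [evV]
    exact sum_mem fun j _ => mul_mem (IntermediateField.subset_adjoin k _ (Or.inl (V i j).2))
      (IntermediateField.subset_adjoin k _ (Or.inr (hbasN j)))
  refine ⟨φ, Φ, C1.dim M, d, ‹_›, ‹_›, fun i => ⟨evV C1 em L.val e (V i), mV i⟩, basV C1 em M,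
    evV C1 em L.val m r / c₀, evV C1 em (Algebra.ofId k Ω) m rb / cu, hX, fun h => hVb0
        (funext fun i =>
      evV_injective C1 em _ hd0 (by rw [← eVb i]; exact congrArg Subtype.val (congrFun h i))),
    basV_ne_zero C1 em M, hbasN,
    fun i => hWmem i,
    div_ne_zero (fun h => hr0 (evV_injective C1 em L.val hd1 h)) hc₀,
    div_ne_zero (fun h => hrb0 (evV_injective C1 em _ hd0 h)) hcu, fun A hA hl => ⟨?_, ?_⟩⟩
  · have h := vmax_of_cert C1 em L.val u V r xR a h1 h2 A hl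
    rw [vmax_fam em L.val hu] at h
    rw [map_div₀, div_mul_eq_mul_div, eq_div_iff ((Valuation.ne_zero_iff _).mpr hc₀), ← h]
    ac_rfl
  · have h := vmax_of_cert C1 em (Algebra.ofId k Ω) ub Vb rb
      (fun p l => φ.map ⟨xR p l, hx' p l⟩) (fun j p l => φ.map ⟨a j p l, ha' j p l⟩) h1' h2' A
      fun l => hA l
    rw [vmax_fam em (Algebra.ofId k Ω) hubf] at h
    rw [map_div₀, div_mul_eq_mul_div, eq_div_iff ((Valuation.ne_zero_iff _).mpr hcu), ← h,
      show (fun i => ((Φ.map (⟨_, mV i⟩ : Φ.dom) : N) : Ω)) = fun i => evV C1 em (Algebra.ofId k Ω)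
          e (Vb i) from funext eVb]
    ac_rfl

omit [IsAlgClosed L] [IsAlgClosed N] [IsAlgClosed k] in
/-- Everything is algebraic over the first field and the transcendental element. -/
theorem isAlgebraic_adjoin_line {t : Ω} (hN : ∀ z ∈ N, IsAlgebraic (adjoin k {t}) z)
    (halg : ∀ z : Ω, IsAlgebraic (adjoin k ((L : Set Ω) ∪ N)) z) (z : Ω) :
    IsAlgebraic (adjoin K (Set.range (L.val.restrictScalars K) ∪ {t})) z := by
  set G : Set Ω := Set.range (L.val.restrictScalars K) ∪ {t} with hG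
  have hLA : ∀ l ∈ L, l ∈ acl K G := fun l hl =>
    subset_acl (K := K) G (Or.inl ⟨⟨l, hl⟩, rfl⟩)
  let A' : IntermediateField k Ω := (acl K G).toSubfield.toIntermediateField fun c =>
    hLA _ (L.algebraMap_mem c)
  have : IsAlgClosed A' := IsAlgClosed.of_ringEquiv (acl K G) A'
    { toFun := fun x => ⟨x.1, x.2⟩, invFun := fun x => ⟨x.1, x.2⟩, left_inv := fun _ => rfl
      right_inv := fun _ => rfl, map_mul' := fun _ _ => rfl, map_add' := fun _ _ => rfl }
  have htA : t ∈ A' := subset_acl (K := K) G (Or.inr rfl)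
  have hNA : ∀ w ∈ N, w ∈ A' := fun w hw => by
    obtain ⟨v, rfl⟩ := mem_range_of_isAlgebraic A'.val (S := {t})
      (Set.singleton_subset_iff.mpr ⟨⟨t, htA⟩, rfl⟩) (hN w hw)
    exact v.2
  obtain ⟨v, hv⟩ := mem_range_of_isAlgebraic A'.val (S := (L : Set Ω) ∪ N) (by
    rintro w (hw | hw)
    · exact ⟨⟨w, hLA w hw⟩, rfl⟩
    · exact ⟨⟨w, hNA w hw⟩, rfl⟩) (halg z)
  have hz : z ∈ acl K G := hv ▸ v.2
  exact mem_acl.mp hz

/-- **Splitting over a field of transcendence degree one.** -/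
theorem exists_split_one (hg : 0 < C.g) {t : Ω} (ht : Transcendental L t) (htN : t ∈ N)
    (hN : ∀ z ∈ N, IsAlgebraic (adjoin k {t}) z)
    (halg : ∀ z : Ω, IsAlgebraic (adjoin k ((L : Set Ω) ∪ N)) z) {x : Pic0 Ω (C.curve Ω)}
    (hx : IsFix C L N x) :
    ∃ a b, (specTheory C).pic (Spec.ofAlgHom (L.val.restrictScalars K)) a +
      (specTheory C).pic (Spec.ofAlgHom (N.val.restrictScalars K)) b = x := by
  classical
  set T := specTheory C
  set Th := thetaTheory C T
  have htk : Transcendental k t := ht.restrictScalars (algebraMap k L).injective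
  have hd : Disj k (L : Set Ω) (N : Set Ω) := by
    refine (disj_of_algebraicIndependent L (fun _ : Unit => t)
      ((algebraicIndependent_unique_type_iff).mpr ht) (L := N) fun z hz => ?_).symm
    rw [Set.range_const]
    exact (IntermediateField.isAlgebraic_adjoin_iff (F := k)).mp (hN z hz)
  obtain ⟨φ, Φ, n, d, _, _, W, Z, c, cb, hX, hW0, hZ0, hZN, hWF, hc, hcb, hcmp⟩ :=
    exists_comparison hd htk htN hN halg hx
  set xb := T.pic (restrictBase K Φ) x
  set x' := T.pic (Spec.ofAlgHom (N.val.restrictScalars K)) xb with hx'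
  have hxf : IsFix C L N x' := isFix_pic xb
  have h0f : IsFix C L N 0 := fun σ _ _ => map_zero _
  -- one model for all vectors
  let ys : Fin 6 → Pic0 Ω (C.curve Ω) := ![x, x', x + x', x - x', x' + x', 0]
  have hys : ∀ j, IsFix C L N (ys j) := by
    intro j
    fin_cases j
    exacts [hx, hxf, hx.add hxf, hx.sub hxf, hxf.add hxf, h0f]
  obtain ⟨S, hSN, hS⟩ := exists_finset_compositum (L := L) (N := N)
    (Sum.elim (fun p : Fin 6 × C.TIdx => Th.nrm (ys p.1) p.2)
      (Sum.elim (fun i => (W i : Ω)) Z)) (by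
    rintro (p | i | i)
    · exact (hys p.1).nrm_mem halg p.2
    · exact hWF i
    · exact IntermediateField.subset_adjoin k _ (Or.inr (hZN i)))
  obtain ⟨C2, em, hemN, -, hmod⟩ := exists_model_sub htk htN hN halg S hSN
  have hd2 : Disj k (Set.range L.val) (Set.range em) :=
    hd.mono (by rintro _ ⟨l, rfl⟩; exact l.2) hemN
  obtain ⟨halg2, hmem⟩ := hmod hd2
  have hfam : ∀ j, HasFam em L.val (Th.theta Ω (ys j)) := fun j =>
    hasFam_of_mem em L.val hd2 (c := (Th.theta Ω (ys j) (Th.idx (ys j)))⁻¹)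
      (inv_ne_zero (Th.theta_idx _)) fun i => by
      rw [← div_eq_inv_mul]
      exact hmem _ (hS (.inl (j, i)))
  have hfW : HasFam em L.val fun i => (W i : Ω) :=
    hasFam_of_mem em L.val hd2 one_ne_zero fun i => by
      rw [one_mul]; exact hmem _ (hS (.inr (.inl i)))
  have hfZ : HasFam em L.val Z :=
    hasFam_of_mem em L.val hd2 one_ne_zero fun i => by
      rw [one_mul]; exact hmem _ (hS (.inr (.inr i)))
  have hne := fun y => Th.theta_ne_zero Ω y
  let h : Pic0 Ω (C.curve Ω) → ℤ := fun y => htv em L.val (Th.theta Ω y)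
  -- the parallelogram law
  have hpar : ∀ y z, HasFam em L.val (Th.theta Ω y) → HasFam em L.val (Th.theta Ω z) →
      HasFam em L.val (Th.theta Ω (y + z)) → HasFam em L.val (Th.theta Ω (y - z)) →
      h (y + z) + h (y - z) = 2 * (h y + h z) := by
    intro y z fy fz fp fm
    obtain ⟨lam, hlam, hl⟩ := Th.parallelogram hg Ω y z
    have e := htv_congr em L.val hd2 halg2 (prodVec_ne_zero (hne (y + z)) (hne (y - z)))
      (prodVec_ne_zero (prodVec_ne_zero (hne y) (hne z)) (prodVec_ne_zero (hne y) (hne z)))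
      (fp.prod em L.val fm) ((fy.prod em L.val fz).prod em L.val (fy.prod em L.val fz)) hlam
      fun A hA _ => by
        rw [vmax_prodVec, vmax_prodVec, vmax_prodVec, hl A (TrivOn.restrictBase (K := K) hA), sq]
    rw [htv_prod em L.val hd2 halg2 (hne _) (hne _) fp fm,
      htv_prod em L.val hd2 halg2 (prodVec_ne_zero (hne y) (hne z))
        (prodVec_ne_zero (hne y) (hne z)) (fy.prod em L.val fz) (fy.prod em L.val fz),
      htv_prod em L.val hd2 halg2 (hne _) (hne _) fy fz] at e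
    simp only [h]
    omega
  have f0 : HasFam em L.val (Th.theta Ω 0) := hfam 5
  have e0 : h 0 = 0 := by
    have := hpar 0 0 f0 f0 (by rw [add_zero]; exact f0) (by rw [sub_zero]; exact f0)
    rw [add_zero, sub_zero] at this
    omega
  have eP : h (x + x') + h (x - x') = 2 * (h x + h x') :=
    hpar x x' (hfam 0) (hfam 1) (hfam 2) (hfam 3)
  have eD : h (x' + x') + h 0 = 2 * (h x' + h x') := by
    have := hpar x' x' (hfam 1) (hfam 1) (hfam 4) (by rw [sub_self]; exact f0)
    rwa [sub_self] at this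
  -- the specialised vectors
  have hW : (fun i => (W i : Ω)) ≠ 0 := fun e => hW0 (funext fun i => by
    rw [show W i = 0 from Subtype.ext (congrFun e i), map_zero]
    rfl)
  obtain ⟨hfWb, hWle⟩ := htv_map_le (specTheory C2) em hd2 halg2 hX hemN hW0 hfW
  have hWb : (fun i => ((Φ.map (W i) : N) : Ω)) ≠ 0 := fun e =>
    hW0 (funext fun i => Subtype.ext (congrFun e i))
  have ecmp : ∀ y (W' : Fin d → Ω) (c' : Ω), W' ≠ 0 → HasFam em L.val W' →
      HasFam em L.val (Th.theta Ω y) → c' ≠ 0 →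
      (∀ A : ValuationSubring Ω, TrivOn k A → (∀ l, L.val l ∈ A) →
        vmax A (Th.theta Ω y) * vmax A W' = A.valuation c' * vmax A Z) →
      h y + htv em L.val W' = htv em L.val Z := by
    intro y W' c' hW' fW fy hc' hv
    rw [← htv_prod em L.val hd2 halg2 (hne y) hW' fy fW]
    exact htv_congr em L.val hd2 halg2 (prodVec_ne_zero (hne y) hW') hZ0 (fy.prod em L.val fW) hfZ
      hc' fun A hA hl => (vmax_prodVec A _ _).trans (hv A hA hl)
  have eX := ecmp x _ c hW hfW (hfam 0) hc fun A hA hl => (hcmp A hA hl).1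
  have eX' := ecmp x' _ cb hWb hfWb (hfam 1) hcb fun A hA hl => (hcmp A hA hl).2
  have hDP : h (x' + x') ≤ h (x + x') := by
    obtain ⟨s, ⟨α, hα, hs⟩, ⟨β, hβ, hs'⟩⟩ := Th.theta_spec (restrictBase K Φ) (x + x')
    have hxb : T.pic (restrictBase K Φ) (x + x') = xb + xb := by
      rw [map_add, hx', T.pic_pic_of_retraction (N.val.restrictScalars K) (restrictBase K Φ)
        hX.mem_N fun z => hX.map_N z _]
    rw [hxb] at hs'
    have h3 : ∀ i, Φ.map (s i) = β * Th.theta N (xb + xb) i := fun i => congrFun hs' i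
    have hims : (fun i => Φ.map (s i)) ≠ 0 := fun e => Th.theta_ne_zero N _ (funext fun i =>
      (mul_eq_zero.mp ((h3 i).symm.trans (congrFun e i))).resolve_left hβ)
    have hsv : (fun i => (s i : Ω)) = α • Th.theta Ω (x + x') := hs
    obtain ⟨-, hle⟩ := htv_map_le (specTheory C2) em hd2 halg2 hX hemN (s := s) hims
      (show HasFam em L.val fun i => (s i : Ω) from hsv ▸ (hfam 2).smul em L.val hα)
    obtain ⟨c₂, hc₂, h4⟩ := theta_pic Th (N.val.restrictScalars K) (xb + xb)
    rw [map_add, ← hx'] at h4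
    have hβ' : (β : Ω) ≠ 0 := fun e => hβ (Subtype.ext e)
    have him : (fun i => ((Φ.map (s i) : N) : Ω)) = ((β : Ω) / c₂) • Th.theta Ω (x' + x') :=
      funext fun i => by
        rw [h3 i, Pi.smul_apply, smul_eq_mul, h4 i]
        show (β : Ω) * (Th.theta N (xb + xb) i : Ω) = _ * (c₂ * (Th.theta N (xb + xb) i : Ω))
        field_simp
    have f4 : HasFam em L.val (Th.theta Ω (x' + x')) := hfam 4
    have f2 : HasFam em L.val (Th.theta Ω (x + x')) := hfam 2
    rw [him, hsv, htv_smul em L.val hd2 halg2 (hne _) f4 (div_ne_zero hβ' hc₂),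
      htv_smul em L.val hd2 halg2 (hne _) f2 hα] at hle
    exact hle
  -- the difference has no degree
  have hG : htv em L.val (Th.theta Ω (x - x')) ≤ 0 := by
    show h (x - x') ≤ 0
    omega
  have f3 : HasFam em L.val (Th.theta Ω (x - x')) := hfam 3
  obtain ⟨i, hi, hrat⟩ := exists_ratio em L.val hd2 halg2 (hne _) f3 hG
  choose cr hcr using hrat
  have hconst : IsConst (L.val.restrictScalars K) (Th.theta Ω (x - x')) :=
    ⟨cr, Th.theta Ω (x - x') i, hi, funext fun j => by
      rw [Pi.smul_apply, smul_eq_mul]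
      show Th.theta Ω (x - x') j = Th.theta Ω (x - x') i * L.val (cr j)
      rw [hcr j, mul_div_cancel₀ _ hi]⟩
  have hS' : ∀ z : Ω, IsAlgebraic
      (adjoin K (Set.range (L.val.restrictScalars K) ∪ ↑({t} : Finset Ω))) z := fun z => by
    rw [Finset.coe_singleton]
    exact isAlgebraic_adjoin_line hN halg z
  obtain ⟨a, ha⟩ := Th.exists_eq_pic hg {t} (L.val.restrictScalars K) hS' hconst
  exact ⟨a, xb, by rw [ha, ← hx', sub_add_cancel]⟩

end Fermat.Agent.Row25.Split

end
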