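import Fermat.Agent.Row25.AV.Split.Cert

/-!
# Elements fixed over two closed fields, models, and specialisations fixing one field

The field generated by two algebraically closed fields is perfect, so it contains every element
fixed by the automorphisms over both. Each finite part of it lies in the field of a model.
-/

set_option autoImplicit false

noncomputable section

open AlgebraicCurve Module
open IntermediateField (adjoin)

namespace Fermat.Agent.Row25.Split

open Fermat.Agent.Row27

universe u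

section Base

variable (K : Type u) [Field K] {k : Type u} [Field k] [Algebra K k] {L L' : Type u} [Field L]
  [Algebra k L] [Algebra K L] [IsScalarTower K k L] [Field L'] [Algebra k L'] [Algebra K L']
  [IsScalarTower K k L']

/-- A specialisation over a larger field of constants, over the smaller one. -/
def restrictBase (φ : Spec k L L') : Spec K L L' where
  dom := φ.dom
  trivOn c := IsScalarTower.algebraMap_apply K k L c ▸ φ.trivOn _
  map := φ.map
  map_algebraMap c := by
    rw [IsScalarTower.algebraMap_apply K k L' c, ← φ.map_algebraMap]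
    exact congrArg φ.map (Subtype.ext (IsScalarTower.algebraMap_apply K k L c))
  map_eq_zero := φ.map_eq_zero

variable {K}

theorem TrivOn.restrictBase {A : ValuationSubring L} (hA : TrivOn k A) : TrivOn K A :=
  fun c => IsScalarTower.algebraMap_apply K k L c ▸ hA _

end Base

variable {k : Type u} [Field k] {Ω : Type u} [Field Ω] [Algebra k Ω]

/-- Linear disjointness of fields is symmetric. -/
theorem Disj.symm {L N : IntermediateField k Ω} (h : Disj k (L : Set Ω) (N : Set Ω)) :
    Disj k (N : Set Ω) (L : Set Ω) := by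
  intro n l v hl hv hind hsum
  set W := Submodule.span k (Set.range l)
  have : Module.Finite k W := FiniteDimensional.span_of_finite k (Set.finite_range l)
  let e := Module.finBasis k W
  have hWN : W ≤ (Subalgebra.toSubmodule N.toSubalgebra) :=
    Submodule.span_le.mpr (Set.range_subset_iff.mpr hl)
  set c : Fin n → Fin (finrank k W) → k := fun i j =>
    e.repr ⟨l i, Submodule.subset_span ⟨i, rfl⟩⟩ j
  have hc : ∀ i, l i = ∑ j, c i j • (e j : Ω) := fun i => by
    have h1 := congrArg Subtype.val (e.sum_repr ⟨l i, Submodule.subset_span ⟨i, rfl⟩⟩)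
    rw [Submodule.coe_sum] at h1
    exact h1.symm
  have he : LinearIndependent k fun j => (e j : Ω) :=
    e.linearIndependent.map' W.subtype (Submodule.ker_subtype W)
  have hz : ∀ j, ∑ i, c i j • v i = 0 := by
    refine h.eq_zero (fun j => sum_mem fun i _ => ?_) (fun j => hWN (e j).2) he ?_
    · exact L.smul_mem (hv i)
    · rw [← hsum]
      simp only [hc, Finset.sum_mul, smul_mul_assoc]
      rw [Finset.sum_comm]
      refine Finset.sum_congr rfl fun i _ => Finset.sum_congr rfl fun j _ => ?_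
      rw [mul_comm (v i)]
  intro i
  rw [hc i]
  refine Finset.sum_eq_zero fun j _ => ?_
  rw [Fintype.linearIndependent_iff.mp hind (fun i => c i j) (hz j) i, zero_smul]

variable {L N : IntermediateField k Ω} [IsAlgClosed L] [IsAlgClosed N]

/-- The field generated by two closed fields is perfect. -/
theorem exists_root_mem {m : ℕ} (q : ℕ) [ExpChar Ω q] {w : Ω}
    (hw : w ∈ adjoin k ((L : Set Ω) ∪ N)) :
    ∃ y ∈ adjoin k ((L : Set Ω) ∪ N), y ^ q ^ m = w := by
  have hq : 0 < q ^ m := pow_pos (expChar_pos Ω q) m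
  induction hw using IntermediateField.adjoin_induction with
  | mem x hx =>
    rcases hx with hx | hx
    · obtain ⟨y, hy⟩ := IsAlgClosed.exists_pow_nat_eq (⟨x, hx⟩ : L) hq
      exact ⟨y, IntermediateField.subset_adjoin k _ (Or.inl y.2), congrArg Subtype.val hy⟩
    · obtain ⟨y, hy⟩ := IsAlgClosed.exists_pow_nat_eq (⟨x, hx⟩ : N) hq
      exact ⟨y, IntermediateField.subset_adjoin k _ (Or.inr y.2), congrArg Subtype.val hy⟩
  | algebraMap r =>
    obtain ⟨y, hy⟩ := IsAlgClosed.exists_pow_nat_eq (algebraMap k L r) hq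
    exact ⟨y, IntermediateField.subset_adjoin k _ (Or.inl y.2), congrArg Subtype.val hy⟩
  | add x y _ _ hx hy =>
    obtain ⟨a, ha, rfl⟩ := hx
    obtain ⟨b, hb, rfl⟩ := hy
    exact ⟨a + b, add_mem ha hb, add_pow_expChar_pow a b q m⟩
  | inv x _ hx =>
    obtain ⟨a, ha, rfl⟩ := hx
    exact ⟨a⁻¹, inv_mem ha, inv_pow a _⟩
  | mul x y _ _ hx hy =>
    obtain ⟨a, ha, rfl⟩ := hx
    obtain ⟨b, hb, rfl⟩ := hy
    exact ⟨a * b, mul_mem ha hb, mul_pow a b _⟩

variable [IsAlgClosed Ω]

/-- **Elements fixed over two closed fields lie in their compositum.** -/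
theorem mem_compositum_of_fixed (K : Type u) [Field K] [Algebra K k] [Algebra K Ω]
    [IsScalarTower K k Ω] (halg : ∀ z : Ω, IsAlgebraic (adjoin k ((L : Set Ω) ∪ N)) z) {z : Ω}
    (h : ∀ σ : Ω ≃ₐ[K] Ω, (∀ l ∈ L, σ l = l) → (∀ w ∈ N, σ w = w) → σ z = z) :
    z ∈ adjoin k ((L : Set Ω) ∪ N) := by
  set F := adjoin k ((L : Set Ω) ∪ N)
  have : ExpChar Ω (ringExpChar Ω) := ringExpChar.expChar Ω
  have hF : ExpChar F.toSubfield (ringExpChar Ω) :=
    RingHom.expChar F.toSubfield.subtype Subtype.val_injective _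
  have halg' : ∀ w : Ω, IsAlgebraic F.toSubfield w := halg
  have : Algebra.IsAlgebraic F.toSubfield Ω := ⟨halg'⟩
  obtain ⟨n, hn⟩ := exists_pow_mem F.toSubfield halg' (fun τ => by
    let σ : Ω ≃ₐ[K] Ω :=
      { RingEquiv.ofBijective τ.toRingHom (Algebra.IsAlgebraic.algHom_bijective τ) with
        commutes' := fun c => τ.commutes ⟨algebraMap K Ω c, by
          rw [IsScalarTower.algebraMap_apply K k Ω c]
          exact F.algebraMap_mem _⟩ }
    exact h σ (fun l hl => τ.commutes ⟨l, IntermediateField.subset_adjoin k _ (Or.inl hl)⟩)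
      fun w hw => τ.commutes ⟨w, IntermediateField.subset_adjoin k _ (Or.inr hw)⟩)
    (ringExpChar Ω) hF
  obtain ⟨y, hy, hyz⟩ := exists_root_mem (m := n) (ringExpChar Ω) hn
  exact iterateFrobenius_inj Ω (ringExpChar Ω) n hyz ▸ hy

omit [IsAlgClosed L] [IsAlgClosed N] [IsAlgClosed Ω] in
/-- Finitely many elements of the compositum need finitely many elements of `N`. -/
theorem exists_finset_compositum {ι : Type*} [Finite ι] (z : ι → Ω)
    (hz : ∀ i, z i ∈ adjoin k ((L : Set Ω) ∪ N)) :
    ∃ S : Finset Ω, (S : Set Ω) ⊆ N ∧ ∀ i, z i ∈ adjoin k ((L : Set Ω) ∪ S) := by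
  classical
  have := Fintype.ofFinite ι
  obtain ⟨T, hT, hT'⟩ := exists_finset_adjoin (K := k) (S := (L : Set Ω) ∪ N)
    (Finset.univ.image z) fun x hx => by
      obtain ⟨i, -, rfl⟩ := Finset.mem_image.mp hx
      exact hz i
  refine ⟨T.filter fun w => w ∈ N, fun w hw => (Finset.mem_filter.mp hw).2, fun i =>
    IntermediateField.adjoin.mono k _ _ (fun w hw => ?_)
      (hT' _ (Finset.mem_image_of_mem z (Finset.mem_univ i)))⟩
  rcases hT hw with h | h
  · exact Or.inl h
  · exact Or.inr (Finset.mem_filter.mpr ⟨hw, h⟩)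

open IntermediateField in
omit [IsAlgClosed N] in
/-- **Models inside a field of transcendence degree one.** -/
theorem exists_model_sub [IsAlgClosed k] {t : Ω} (ht : Transcendental k t) (htN : t ∈ N)
    (hN : ∀ z ∈ N, IsAlgebraic k⟮t⟯ z)
    (halg : ∀ z : Ω, IsAlgebraic (adjoin k ((L : Set Ω) ∪ N)) z) (S : Finset Ω)
    (hS : (S : Set Ω) ⊆ N) :
    ∃ (C : CurveData k) (em : C.curve k →ₐ[k] Ω),
      Set.range em ⊆ (N : Set Ω) ∧ (S : Set Ω) ⊆ Set.range em ∧
      ∀ hd : Disj k (Set.range L.val) (Set.range em),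
        (∀ z : Ω, IsAlgebraic (iota C em L.val hd).fieldRange z) ∧
        ∀ z ∈ adjoin k ((L : Set Ω) ∪ S), z ∈ Set.range (iota C em L.val hd) := by
  obtain ⟨C, em, hem⟩ := exists_model ht S fun z hz => hN z (hS hz)
  have hins : insert t (S : Set Ω) ⊆ (N : Set Ω) := Set.insert_subset htN hS
  refine ⟨C, em, hem ▸ (IntermediateField.adjoin_le_iff.mpr hins :),
    hem ▸ (Set.subset_insert _ _).trans (IntermediateField.subset_adjoin k _), fun hd => ?_⟩
  set F1 := (iota C em L.val hd).fieldRange
  have hk : ∀ c : k, algebraMap k Ω c ∈ F1 := fun c =>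
    ⟨algebraMap L (C.curve L) (algebraMap k L c), iota_algebraMap C em L.val hd _⟩
  let F : IntermediateField k Ω := F1.toIntermediateField hk
  have hL : (L : Set Ω) ⊆ F := fun l hl =>
    ⟨algebraMap L (C.curve L) ⟨l, hl⟩, iota_algebraMap C em L.val hd _⟩
  have hE : Set.range em ⊆ F := by
    rintro _ ⟨f, rfl⟩
    exact em_mem_range em L.val hd f
  refine ⟨fun z => ?_, fun z hz => ?_⟩
  · let F' : IntermediateField k Ω := (algebraicClosure F Ω).restrictScalars k
    have : IsAlgClosed F' := IsAlgClosure.isAlgClosed F (K := algebraicClosure F Ω)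
    have hsub : ∀ w ∈ F, w ∈ F' := fun w hw => (algebraicClosure F Ω).algebraMap_mem ⟨w, hw⟩
    have hNF : (N : Set Ω) ⊆ F' := fun w hw => by
      obtain ⟨v, rfl⟩ := mem_range_of_isAlgebraic F'.val (S := {t}) (Set.singleton_subset_iff.mpr
        ⟨⟨t, hsub t (hE (hem ▸ IntermediateField.subset_adjoin k _ (Set.mem_insert t _)))⟩, rfl⟩)
        (hN w hw)
      exact v.2
    obtain ⟨v, rfl⟩ := mem_range_of_isAlgebraic F'.val (S := (L : Set Ω) ∪ N) (by
      rintro w (hw | hw)
      · exact ⟨⟨w, hsub w (hL hw)⟩, rfl⟩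
      · exact ⟨⟨w, hNF hw⟩, rfl⟩) (halg z)
    exact mem_algebraicClosure_iff.mp v.2
  · refine (IntermediateField.adjoin_le_iff.mpr ?_ : adjoin k ((L : Set Ω) ∪ S) ≤ F) hz
    exact Set.union_subset hL
      (fun w hw => hE (hem ▸ IntermediateField.subset_adjoin k _ (Or.inr hw)))

omit [IsAlgClosed L] [IsAlgClosed Ω] in
/-- **Specialisations fixing the second field.** -/
theorem exists_extends (hd : Disj k (L : Set Ω) (N : Set Ω)) (φ : Spec k L k) :
    ∃ Φ : Spec k Ω N, Extends L.val φ Φ := by
  classical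
  set G : Set Ω := (fun a : φ.dom => ((a : L) : Ω)) '' Set.univ ∪ N
  set R := Subring.closure G with hR
  have hGL : ∀ a : φ.dom, ((a : L) : Ω) ∈ R := fun a =>
    Subring.subset_closure (Or.inl ⟨a, trivial, rfl⟩)
  have hGN : ∀ z : N, N.val z ∈ R := fun z => Subring.subset_closure (Or.inr z.2)
  set gen : {a : φ.dom // φ.map a = 0} → R := fun a => ⟨_, hGL a.1⟩
  set I : Ideal R := Ideal.span (Set.range gen)
  -- the elements are combinations of products
  have hcomb : ∀ r ∈ R, ∃ (n : ℕ) (b : Fin n → φ.dom) (z : Fin n → N),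
      r = ∑ i, ((b i : L) : Ω) * z i := by
    intro r hr
    induction hr using Subring.closure_induction with
    | mem x hx =>
      rcases hx with ⟨a, -, rfl⟩ | hx
      · exact ⟨1, fun _ => a, fun _ => 1, by simp⟩
      · exact ⟨1, fun _ => 1, fun _ => ⟨x, hx⟩, by simp⟩
    | zero => exact ⟨0, ![], ![], by simp⟩
    | one => exact ⟨1, fun _ => 1, fun _ => 1, by simp⟩
    | add x y _ _ hx hy =>
      obtain ⟨n, b, z, rfl⟩ := hx
      obtain ⟨n', b', z', rfl⟩ := hy
      exact ⟨n + n', Fin.append b b', Fin.append z z', by simp [Fin.sum_univ_add]⟩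
    | neg x _ hx =>
      obtain ⟨n, b, z, rfl⟩ := hx
      exact ⟨n, fun i => -b i, z, by simp⟩
    | mul x y _ _ hx hy =>
      obtain ⟨n, b, z, rfl⟩ := hx
      obtain ⟨n', b', z', rfl⟩ := hy
      refine ⟨n * n', fun p => b (finProdFinEquiv.symm p).1 * b' (finProdFinEquiv.symm p).2,
        fun p => z (finProdFinEquiv.symm p).1 * z' (finProdFinEquiv.symm p).2, ?_⟩
      rw [Finset.sum_mul_sum, ← Fintype.sum_prod_type']
      refine Fintype.sum_equiv finProdFinEquiv _ _ fun p => ?_
      simp only [Equiv.symm_apply_apply]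
      push_cast
      ring
  have hI : I ≠ ⊤ := by
    intro htop
    have h1 : (1 : R) ∈ I := htop ▸ trivial
    -- write one as a combination of elements with vanishing specialisation
    have key : ∀ r ∈ I, ∃ (n : ℕ) (b : Fin n → φ.dom) (z : Fin n → N),
        (∀ i, φ.map (b i) = 0) ∧ (r : Ω) = ∑ i, ((b i : L) : Ω) * z i := by
      intro r hr
      induction hr using Submodule.span_induction with
      | mem x hx =>
        obtain ⟨⟨a, ha⟩, rfl⟩ := hx
        exact ⟨1, fun _ => a, fun _ => 1, fun _ => ha, by simp [gen]⟩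
      | zero => exact ⟨0, ![], ![], fun i => i.elim0, by simp⟩
      | add x y _ _ hx hy =>
        obtain ⟨n, b, z, hb, hx⟩ := hx
        obtain ⟨n', b', z', hb', hy⟩ := hy
        refine ⟨n + n', Fin.append b b', Fin.append z z', Fin.addCases (by simp [hb])
          (by simp [hb']), ?_⟩
        simp [Fin.sum_univ_add, hx, hy]
      | smul c x _ hx =>
        obtain ⟨n, b, z, hb, hx⟩ := hx
        obtain ⟨n', b', z', hc⟩ := hcomb c c.2
        refine ⟨n' * n, fun p => b' (finProdFinEquiv.symm p).1 * b (finProdFinEquiv.symm p).2,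
          fun p => z' (finProdFinEquiv.symm p).1 * z (finProdFinEquiv.symm p).2,
          fun p => by rw [map_mul, hb, mul_zero], ?_⟩
        rw [smul_eq_mul, Subring.coe_mul, hc, hx, Finset.sum_mul_sum, ← Fintype.sum_prod_type']
        refine Fintype.sum_equiv finProdFinEquiv _ _ fun p => ?_
        simp only [Equiv.symm_apply_apply]
        push_cast
        ring
    obtain ⟨n, b, z, hb, h1⟩ := key 1 h1
    set W := Submodule.span k (Set.range (Option.elim · (1 : Ω) fun i => (z i : Ω)))
    have : Module.Finite k W := FiniteDimensional.span_of_finite k (Set.finite_range _)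
    let e := Module.finBasis k W
    have hWN : W ≤ (Subalgebra.toSubmodule N.toSubalgebra) :=
      Submodule.span_le.mpr (Set.range_subset_iff.mpr fun o =>
        o.casesOn (one_mem N) fun i => (z i).2)
    let cz : Fin n → Fin (finrank k W) → k := fun i j =>
      e.repr ⟨z i, Submodule.subset_span ⟨some i, rfl⟩⟩ j
    let co : Fin (finrank k W) → k := fun j => e.repr ⟨1, Submodule.subset_span ⟨none, rfl⟩⟩ j
    have hz : ∀ i, (z i : Ω) = ∑ j, cz i j • (e j : Ω) := fun i => by
      have h2 := congrArg Subtype.val (e.sum_repr ⟨z i, Submodule.subset_span ⟨some i, rfl⟩⟩)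
      rw [Submodule.coe_sum] at h2
      exact h2.symm
    have ho : (1 : Ω) = ∑ j, co j • (e j : Ω) := by
      have h2 := congrArg Subtype.val (e.sum_repr ⟨1, Submodule.subset_span ⟨none, rfl⟩⟩)
      rw [Submodule.coe_sum] at h2
      exact h2.symm
    have he : LinearIndependent k fun j => (e j : Ω) :=
      e.linearIndependent.map' W.subtype (Submodule.ker_subtype W)
    have h0 : ∀ j, ((∑ i, cz i j • (b i : L) - algebraMap k L (co j) : L) : Ω) = 0 := by
      refine hd.eq_zero (fun j => Subtype.prop _) (fun j => hWN (e j).2) he ?_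
      have h2 : (0 : Ω) = ∑ i, ((b i : L) : Ω) * z i - 1 := by
        rw [← h1]
        exact (sub_self (1 : Ω)).symm
      rw [h2]
      conv_rhs => rw [ho]; simp only [hz, Finset.mul_sum]; rw [Finset.sum_comm, ← Finset.sum_sub_distrib]
      refine Finset.sum_congr rfl fun j _ => ?_
      simp only [AddSubgroupClass.coe_sub, IntermediateField.coe_sum,
        sub_mul, Finset.sum_mul, Algebra.smul_def]
      congr 1
      exact Finset.sum_congr rfl fun i _ => by
        show algebraMap k Ω (cz i j) * _ * _ = _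
        ring
    have hco : ∀ j, co j = 0 := fun j => by
      have h2 : (∑ i, ⟨algebraMap k L (cz i j), φ.trivOn _⟩ * b i : φ.dom) =
          ⟨algebraMap k L (co j), φ.trivOn _⟩ := Subtype.ext (by
        have h3 : (∑ i, cz i j • (b i : L) : L) = algebraMap k L (co j) :=
          sub_eq_zero.mp (Subtype.ext (h0 j))
        refine Eq.trans ?_ h3
        show φ.dom.subtype _ = _
        simp [map_sum, Algebra.smul_def])
      have h4 := congrArg φ.map h2
      simp only [map_sum, map_mul, hb, mul_zero, Finset.sum_const_zero, φ.map_algebraMap] at h4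
      exact h4.symm
    refine one_ne_zero (α := Ω) ?_
    rw [ho]
    exact Finset.sum_eq_zero fun j _ => by rw [hco, zero_smul]
  have hgenI : ∀ a : φ.dom, (⟨_, hGL a⟩ : R) - ⟨N.val (algebraMap k N (φ.map a)), hGN _⟩ ∈ I := by
    intro a
    set a' : φ.dom := a - ⟨algebraMap k L (φ.map a), φ.trivOn _⟩
    have ha' : φ.map a' = 0 := by
      rw [map_sub, φ.map_algebraMap, Algebra.algebraMap_self, RingHom.id_apply, sub_self]
    refine Ideal.subset_span ⟨⟨a', ha'⟩, Subtype.ext ?_⟩
    simp [gen, a']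
  obtain ⟨Φ, hRd, hfix, hkill⟩ := exists_spec N.val R hGN I hI fun r => by
    obtain ⟨n, b, z, hr⟩ := hcomb r r.2
    refine ⟨∑ i, algebraMap k N (φ.map (b i)) * z i, ?_⟩
    have e : r - ⟨N.val (∑ i, algebraMap k N (φ.map (b i)) * z i), hGN _⟩ =
        ∑ i, ((⟨_, hGL (b i)⟩ : R) - ⟨N.val (algebraMap k N (φ.map (b i))), hGN _⟩) *
          ⟨_, hGN (z i)⟩ := Subtype.ext (by
      show (r : Ω) - _ = R.subtype _
      simp [map_sum, sub_mul, hr])
    rw [e]
    exact sum_mem fun i _ => Ideal.mul_mem_right _ _ (hgenI _)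
  refine ⟨Φ, fun l => hRd (hGL l), fun l h => ?_, fun z => hRd (hGN z), fun z h => hfix z⟩
  have h1 := hkill _ (hgenI l)
  have e : (⟨_, hRd ((⟨_, hGL l⟩ : R) - ⟨N.val (algebraMap k N (φ.map l)), hGN _⟩).2⟩ : Φ.dom) =
      ⟨_, hRd (hGL l)⟩ - ⟨_, hRd (hGN (algebraMap k N (φ.map l)))⟩ := rfl
  rw [e, map_sub, hfix, sub_eq_zero] at h1
  exact h1

omit [IsAlgClosed L] [IsAlgClosed N] [IsAlgClosed Ω] in
/-- Proportional integral vectors have proportional images. -/
theorem propTo_map {ι : Type*} (Φ : Spec k Ω N) {s U : ι → Φ.dom} {c : Ω}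
    (h : ∀ i, (s i : Ω) = c * U i) (hs : (fun i => Φ.map (s i)) ≠ 0)
    (hU : (fun i => Φ.map (U i)) ≠ 0) :
    ∃ γ : N, γ ≠ 0 ∧ ∀ i, Φ.map (s i) = γ * Φ.map (U i) := by
  obtain ⟨j, hj⟩ := Function.ne_iff.mp hU
  have hu : IsUnit (U j) := by
    by_contra h'
    exact hj ((Φ.map_eq_zero _).mpr h')
  obtain ⟨y, hy⟩ := isUnit_iff_exists_inv.mp hu
  have hc : c ∈ Φ.dom := by
    have hy' : (U j : Ω) * y = 1 := congrArg Subtype.val hy
    rw [show c = c * (U j : Ω) * y by rw [mul_assoc, hy', mul_one], ← h j]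
    exact mul_mem (s j).2 y.2
  have hm : ∀ i, Φ.map (s i) = Φ.map ⟨c, hc⟩ * Φ.map (U i) := fun i => by
    rw [← map_mul]
    exact congrArg Φ.map (Subtype.ext (h i))
  refine ⟨Φ.map ⟨c, hc⟩, fun h0 => hs (funext fun i => ?_), hm⟩
  rw [hm, h0, zero_mul]
  rfl

end Fermat.Agent.Row25.Split

end
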