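import Fermat.Agent.Row25.AV.Split.Height
import Fermat.Agent.Row25.AV.Split.Extend
import Fermat.Agent.Row27.ThetaParallelogram

/-!
# Vectors of constants with a family in a model

The degree of a vector of `Ω` proportional to the values of a family, its behaviour under
products and under specialisations fixing the second field, and bases without common zeros.
-/

set_option autoImplicit false

noncomputable section

open AlgebraicCurve Module

namespace Fermat.Agent.Row25.Split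

open Fermat.Agent.Row27

universe u

variable {K : Type u} [Field K] [IsAlgClosed K] {C : CurveData K} (T : SpecTheory C)
  {Ω : Type u} [Field Ω] [Algebra K Ω] [IsAlgClosed Ω]
  (em : C.curve K →ₐ[K] Ω) {L : Type u} [Field L] [Algebra K L] [IsAlgClosed L] (ψ : L →ₐ[K] Ω)
  {ι κ : Type*}

/-- The vector is proportional to the values of a family. -/
def HasFam (s : ι → Ω) : Prop :=
  ∃ (b : ℕ) (u : ι → C.Idx b → L) (c : Ω), c ≠ 0 ∧ ∀ i, evV C em ψ b (u i) = c * s i

/-- The degree of such a vector. -/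
def htv [Fintype ι] (s : ι → Ω) : ℤ :=
  haveI := Classical.dec (HasFam em ψ s)
  if h : HasFam em ψ s then ht C h.choose_spec.choose else 0

variable (hd : Disj K (Set.range ψ) (Set.range em))

omit [IsAlgClosed Ω] [IsAlgClosed L] in
theorem fam_ne_zero {s : ι → Ω} (hs : s ≠ 0) {b : ℕ} {u : ι → C.Idx b → L} {c : Ω} (hc : c ≠ 0)
    (hu : ∀ i, evV C em ψ b (u i) = c * s i) : u ≠ 0 := fun h => hs (funext fun i => by
  have h1 := hu i
  rw [h, show evV C em ψ b ((0 : ι → C.Idx b → L) i) = 0 by simp [evV], eq_comm, mul_eq_zero] at h1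
  exact h1.resolve_left hc)

omit [IsAlgClosed Ω] [IsAlgClosed L] in
theorem vmax_fam [Fintype ι] [Nonempty ι] {s : ι → Ω} {b : ℕ} {u : ι → C.Idx b → L} {c : Ω}
    (hu : ∀ i, evV C em ψ b (u i) = c * s i) (A : ValuationSubring Ω) :
    vmax A (fun i => evV C em ψ b (u i)) = A.valuation c * vmax A s := by
  rw [← vmax_smul, show (fun i => evV C em ψ b (u i)) = c • s from funext hu]

variable (halg : ∀ z : Ω, IsAlgebraic (iota C em ψ hd).fieldRange z)
variable [Fintype ι] [Fintype κ] [Nonempty ι] [Nonempty κ]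

include hd halg in
theorem htv_eq {s : ι → Ω} (hs : s ≠ 0) {b : ℕ} {u : ι → C.Idx b → L} {c : Ω} (hc : c ≠ 0)
    (hu : ∀ i, evV C em ψ b (u i) = c * s i) : htv em ψ s = ht C u := by
  have h : HasFam em ψ s := ⟨b, u, c, hc, hu⟩
  rw [htv, dif_pos h]
  obtain ⟨c₀, hc₀, hu₀⟩ := h.choose_spec.choose_spec
  refine ht_eq_of_vmax em ψ hd (fam_ne_zero em ψ hs hc₀ hu₀) (fam_ne_zero em ψ hs hc hu) halg
    (div_ne_zero hc₀ hc) fun A _ _ => ?_
  rw [vmax_fam em ψ hu₀, vmax_fam em ψ hu, ← mul_assoc, ← map_mul, div_mul_cancel₀ _ hc]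

include hd halg in
/-- The degree depends only on the values at the valuations. -/
theorem htv_congr {s : ι → Ω} {s' : κ → Ω} (hs : s ≠ 0) (hs' : s' ≠ 0) (hf : HasFam em ψ s)
    (hf' : HasFam em ψ s') {lam : Ω} (hlam : lam ≠ 0)
    (h : ∀ A : ValuationSubring Ω, TrivOn K A → (∀ l, ψ l ∈ A) →
      vmax A s = A.valuation lam * vmax A s') : htv em ψ s = htv em ψ s' := by
  obtain ⟨b, u, c, hc, hu⟩ := hf
  obtain ⟨b', u', c', hc', hu'⟩ := hf'
  rw [htv_eq em ψ hd halg hs hc hu, htv_eq em ψ hd halg hs' hc' hu']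
  refine ht_eq_of_vmax em ψ hd (fam_ne_zero em ψ hs hc hu) (fam_ne_zero em ψ hs' hc' hu') halg
    (div_ne_zero (mul_ne_zero hc hlam) hc') fun A hA hl => ?_
  rw [vmax_fam em ψ hu, vmax_fam em ψ hu', h A hA hl, ← mul_assoc, ← mul_assoc, ← map_mul,
    ← map_mul, div_mul_cancel₀ _ hc']

/-- Products of coordinates. -/
def prodVec (s : ι → Ω) (s' : κ → Ω) : ι × κ → Ω := fun p => s p.1 * s' p.2

omit [IsAlgClosed Ω] [Algebra K Ω] [Fintype ι] [Fintype κ] [Nonempty ι] [Nonempty κ] in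
theorem prodVec_ne_zero {s : ι → Ω} {s' : κ → Ω} (hs : s ≠ 0) (hs' : s' ≠ 0) :
    prodVec s s' ≠ 0 := by
  obtain ⟨i, hi⟩ := Function.ne_iff.mp hs
  obtain ⟨j, hj⟩ := Function.ne_iff.mp hs'
  exact fun h => mul_ne_zero hi hj (congrFun h (i, j))

omit [IsAlgClosed Ω] in
theorem vmax_prodVec (A : ValuationSubring Ω) (s : ι → Ω) (s' : κ → Ω) :
    vmax A (prodVec s s') = vmax A s * vmax A s' := CurveData.vmax_prod A s s'

omit [IsAlgClosed Ω] [IsAlgClosed L] [Fintype ι] [Fintype κ] [Nonempty ι] [Nonempty κ] in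
theorem HasFam.prod {s : ι → Ω} {s' : κ → Ω} (hf : HasFam em ψ s) (hf' : HasFam em ψ s') :
    HasFam em ψ (prodVec s s') := by
  obtain ⟨b, u, c, hc, hu⟩ := hf
  obtain ⟨b', u', c', hc', hu'⟩ := hf'
  refine ⟨b + b', prodFam u u', c * c', mul_ne_zero hc hc', fun p => ?_⟩
  rw [prodFam, evV_mulv C em ψ le_rfl, hu, hu', prodVec]
  ring

include hd halg in
theorem htv_prod {s : ι → Ω} {s' : κ → Ω} (hs : s ≠ 0) (hs' : s' ≠ 0) (hf : HasFam em ψ s)
    (hf' : HasFam em ψ s') : htv em ψ (prodVec s s') = htv em ψ s + htv em ψ s' := by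
  obtain ⟨b, u, c, hc, hu⟩ := hf
  obtain ⟨b', u', c', hc', hu'⟩ := hf'
  rw [htv_eq em ψ hd halg hs hc hu, htv_eq em ψ hd halg hs' hc' hu',
    htv_eq em ψ hd halg (prodVec_ne_zero hs hs') (mul_ne_zero hc hc') (u := prodFam u u') fun p =>
        by
      rw [prodFam, evV_mulv C em ψ le_rfl, hu, hu', prodVec]
      ring,
    ht_prodFam (fam_ne_zero em ψ hs hc hu) (fam_ne_zero em ψ hs' hc' hu')]

omit [IsAlgClosed Ω] [IsAlgClosed L] [Fintype ι] [Nonempty ι] [Fintype κ] [Nonempty κ] in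
theorem HasFam.smul {s : ι → Ω} (hf : HasFam em ψ s) {a : Ω} (ha : a ≠ 0) :
    HasFam em ψ (a • s) := by
  obtain ⟨b, u, c, hc, hu⟩ := hf
  refine ⟨b, u, c / a, div_ne_zero hc ha, fun i => ?_⟩
  rw [hu, Pi.smul_apply, smul_eq_mul]
  field_simp

include hd halg in
omit [Fintype κ] [Nonempty κ] in
theorem htv_smul {s : ι → Ω} (hs : s ≠ 0) (hf : HasFam em ψ s) {a : Ω} (ha : a ≠ 0) :
    htv em ψ (a • s) = htv em ψ s := by
  obtain ⟨b, u, c, hc, hu⟩ := hf
  rw [htv_eq em ψ hd halg hs hc hu, htv_eq em ψ hd halg (smul_ne_zero ha hs) (div_ne_zero hc ha)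
    (u := u) fun i => by rw [hu, Pi.smul_apply, smul_eq_mul]; field_simp]

include hd halg in
/-- A vector without degree has constant ratios. -/
theorem exists_ratio {s : ι → Ω} (hs : s ≠ 0) (hf : HasFam em ψ s) (h : htv em ψ s ≤ 0) :
    ∃ i, s i ≠ 0 ∧ ∀ j, s j / s i ∈ Set.range ψ := by
  obtain ⟨b, u, c, hc, hu⟩ := hf
  have hu0 := fam_ne_zero em ψ hs hc hu
  rw [htv_eq em ψ hd halg hs hc hu] at h
  obtain ⟨i, hi, a, ha⟩ := exists_smul_of_ht hu0 (le_antisymm h (ht_nonneg hu0))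
  have hsi : s i ≠ 0 := fun h0 => hi (evV_injective C em ψ hd (by rw [hu, h0, mul_zero]))
  refine ⟨i, hsi, fun j => ⟨a j, ?_⟩⟩
  have h1 := hu j
  rw [ha j, evV_smul, hu] at h1
  rw [eq_div_iff hsi]
  exact mul_left_cancel₀ hc (by linear_combination h1)

omit [IsAlgClosed Ω] [Fintype κ] [Nonempty κ] [Nonempty ι] in
include hd in
/-- Vectors in the field of the model have families. -/
theorem hasFam_of_mem {s : ι → Ω} {c : Ω} (hc : c ≠ 0)
    (hs : ∀ i, c * s i ∈ Set.range (iota C em ψ hd)) : HasFam em ψ s := by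
  classical
  choose f hf using hs
  choose B X W hW hWX using fun i => exists_frac C (f i)
  -- a common denominator
  have key : ∀ S : Finset ι, ∃ (b : ℕ) (w : C.Idx b → L), w ≠ 0 ∧
      ∀ i ∈ S, ∃ x : C.Idx b → L, f i * C.realF L b w = C.realF L b x := by
    intro S
    induction S using Finset.induction with
    | empty =>
      exact ⟨0, fun l => algebraMap K L (C.one 0 l), fun h => by
        have := C.realF_one L 0
        rw [h, map_zero] at this
        exact zero_ne_one this, by simp⟩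
    | insert i S _ ih =>
      obtain ⟨b, w, hw, hx⟩ := ih
      refine ⟨b + B i, C.mulL L (b + B i) w (W i), C.mulL_ne_zero L le_rfl hw (hW i),
        fun j hj => ?_⟩
      rcases Finset.mem_insert.mp hj with rfl | hj
      · refine ⟨C.mulL L (b + B j) w (X j), ?_⟩
        rw [C.realF_mulL L le_rfl, C.realF_mulL L le_rfl, ← hWX j]
        ring
      · obtain ⟨x, hx⟩ := hx j hj
        refine ⟨C.mulL L (b + B i) x (W i), ?_⟩
        rw [C.realF_mulL L le_rfl, C.realF_mulL L le_rfl, ← hx]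
        ring
  obtain ⟨b, w, hw, hx⟩ := key Finset.univ
  choose x hx using fun i => hx i (Finset.mem_univ i)
  refine ⟨b, x, c * evV C em ψ b w, mul_ne_zero hc fun h => hw (evV_injective C em ψ hd h),
    fun i => ?_⟩
  have h1 := congrArg (iota C em ψ hd) (hx i)
  rw [map_mul, hf, iota_realF, iota_realF] at h1
  rw [← h1]
  ring

omit [IsAlgClosed Ω] in
include hd in
/-- The field of the model is inside the field of its functions over `L`. -/
theorem em_mem_range (f : C.curve K) : em f ∈ Set.range (iota C em ψ hd) := by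
  obtain ⟨b, x, w, hw, h⟩ := exists_frac C f
  have hev : ∀ z : C.Idx b → K,
      evV C em ψ b (fun l => algebraMap K L (z l)) = em (C.realF K b z) := fun z => by
    rw [em_realF]
    simp [evV]
  have hw' : em (C.realF K b w) ≠ 0 := (map_ne_zero em).mpr (C.realF_ne_zero K hw)
  refine ⟨C.realF L b (fun l => algebraMap K L (x l)) / C.realF L b (fun l => algebraMap K L (w l)),
    ?_⟩
  rw [map_div₀, iota_realF, iota_realF, hev, hev, div_eq_iff hw', ← map_mul, h]

section Reduce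

variable {N : IntermediateField K Ω} [IsAlgClosed N] (φ : Spec K L K) (Φ : Spec K Ω N)

/-- The specialisation extends `φ` and fixes `N`. -/
structure Extends : Prop where
  mem_L : ∀ l : φ.dom, ψ l ∈ Φ.dom
  map_L : ∀ (l : φ.dom) (h : ψ l ∈ Φ.dom), Φ.map ⟨ψ l, h⟩ = algebraMap K N (φ.map l)
  mem_N : ∀ z : N, (z : Ω) ∈ Φ.dom
  map_N : ∀ (z : N) (h : (z : Ω) ∈ Φ.dom), Φ.map ⟨z, h⟩ = z

variable {ψ φ Φ}

omit [IsAlgClosed Ω] [IsAlgClosed L] [IsAlgClosed N] [Fintype ι] [Nonempty ι] in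
/-- Integral combinations of the basis specialise to combinations with images of coefficients. -/
theorem Extends.map_evV (hX : Extends ψ φ Φ) (hN : Set.range em ⊆ (N : Set Ω)) {b : ℕ}
    (x : C.Idx b → φ.dom) :
    ∃ h : evV C em ψ b (fun l => (x l : L)) ∈ Φ.dom,
      ((Φ.map ⟨_, h⟩ : N) : Ω) = evV C em (Algebra.ofId K Ω) b (fun l => φ.map (x l)) := by
  have hb : ∀ j, basV C em b j ∈ N := fun j => hN ⟨_, rfl⟩
  have hmem : evV C em ψ b (fun l => (x l : L)) ∈ Φ.dom :=
    sum_mem fun j _ => mul_mem (hX.mem_L (x j)) (hX.mem_N ⟨_, hb j⟩)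
  refine ⟨hmem, ?_⟩
  have e : (⟨_, hmem⟩ : Φ.dom) = ∑ j, ⟨ψ (x j), hX.mem_L (x j)⟩ * ⟨_, hX.mem_N ⟨_, hb j⟩⟩ :=
    Subtype.ext (by
      show _ = Φ.dom.subtype _
      simp only [map_sum, map_mul]
      rfl)
  rw [e, map_sum]
  simp only [map_mul, hX.map_L, evV]
  show N.val _ = _
  rw [map_sum]
  refine Finset.sum_congr rfl fun j _ => ?_
  rw [map_mul, AlgHom.commutes, hX.map_N ⟨_, hb j⟩]
  rfl

omit [IsAlgClosed Ω] [IsAlgClosed L] in
theorem disj_ofId {hd : Disj K (Set.range ψ) (Set.range em)} :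
    Disj K (Set.range (Algebra.ofId K Ω)) (Set.range em) :=
  hd.mono (by rintro _ ⟨c, rfl⟩; exact ⟨algebraMap K L c, ψ.commutes c⟩) subset_rfl

include T hd halg in
omit [IsAlgClosed N] in
/-- **Specialisation does not raise the degree.** -/
theorem htv_map_le (hX : Extends ψ φ Φ) (hN : Set.range em ⊆ (N : Set Ω)) {s : ι → Φ.dom}
    (hs : (fun i => Φ.map (s i)) ≠ 0) (hf : HasFam em ψ (fun i => (s i : Ω))) :
    HasFam em ψ (fun i => ((Φ.map (s i) : N) : Ω)) ∧
      htv em ψ (fun i => ((Φ.map (s i) : N) : Ω)) ≤ htv em ψ (fun i => (s i : Ω)) := by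
  obtain ⟨j, hj⟩ := Function.ne_iff.mp hs
  have hsj : IsUnit (s j) := by
    by_contra h
    exact hj ((Φ.map_eq_zero _).mpr h)
  have hs0 : (fun i => (s i : Ω)) ≠ 0 := fun h => hsj.ne_zero (Subtype.ext (congrFun h j))
  obtain ⟨b, u, c, hc, hu⟩ := hf
  have hu0 := fam_ne_zero em ψ hs0 hc hu
  obtain ⟨c₀, u', hc₀, huu, ⟨i₁, l₁⟩, h1⟩ := exists_scaled (A := φ.dom)
    (fun p : ι × C.Idx b => u p.1 p.2) fun h => hu0 (funext fun i => funext fun l => congrFun h
        (i, l))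
  have hu' : ∀ i, evV C em ψ b (fun l => (u' (i, l) : L)) = c / ψ c₀ * s i := fun i => by
    rw [div_mul_eq_mul_div, eq_div_iff ((map_ne_zero ψ).mpr hc₀), ← hu i, mul_comm,
      ← evV_smul C em ψ]
    congr 1
    funext l
    exact (congrFun huu (i, l)).symm
  set c' := c / ψ c₀ with hc'
  have hc'0 : c' ≠ 0 := div_ne_zero hc ((map_ne_zero ψ).mpr hc₀)
  choose hmem hmap using fun i => hX.map_evV em hN fun l => u' (i, l)
  set ub : ι → C.Idx b → K := fun i l => φ.map (u' (i, l)) with hub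
  have hub0 : ub i₁ ≠ 0 := fun h => one_ne_zero (α := K) (by
    have := congrFun h l₁
    simp only [hub, h1, map_one] at this
    exact this)
  -- the factor is a unit
  have hc'mem : c' ∈ Φ.dom := by
    obtain ⟨y, hy⟩ := isUnit_iff_exists_inv.mp hsj
    have hy' : (s j : Ω) * y = 1 := congrArg Subtype.val hy
    rw [show c' = c' * (s j : Ω) * y by rw [mul_assoc, hy', mul_one], ← hu']
    exact mul_mem (hmem j) y.2
  have hprod : ∀ i, (⟨_, hmem i⟩ : Φ.dom) = ⟨c', hc'mem⟩ * s i := fun i => Subtype.ext (hu' i)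
  set γ : N := Φ.map ⟨c', hc'mem⟩
  have hγ : ∀ i, evV C em (Algebra.ofId K Ω) b (ub i) = (γ : Ω) * ((Φ.map (s i) : N) : Ω) :=
    fun i => by rw [← hmap i, hprod i, map_mul]; rfl
  have hγ0 : (γ : Ω) ≠ 0 := fun h => hub0 (evV_injective C em _ (disj_ofId em (hd := hd)) (by
    rw [hγ, h, zero_mul]))
  have hfam : ∀ i, evV C em ψ b (fun l => algebraMap K L (ub i l)) =
      (γ : Ω) * ((Φ.map (s i) : N) : Ω) := fun i => by
    rw [← hγ i]
    simp [evV]
  have hsb : (fun i => ((Φ.map (s i) : N) : Ω)) ≠ 0 := fun h => hj (Subtype.ext (congrFun h j))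
  refine ⟨⟨b, _, _, hγ0, hfam⟩, ?_⟩
  rw [htv_eq em ψ hd halg hsb hγ0 hfam, htv_eq em ψ hd halg hs0 hc'0 hu',
    ht_base_change T (z := ub) fun h => hub0 (congrFun h i₁)]
  exact ht_map_le T φ (u := fun i l => u' (i, l)) fun h => hub0 (congrFun h i₁)

end Reduce

section Certificate

omit [IsAlgClosed Ω] [IsAlgClosed K] [IsAlgClosed L] [Algebra K Ω] in
/-- Integral combinations do not exceed the largest value. -/
theorem valuation_comb_le {δ : Type*} [Fintype δ] (A : ValuationSubring Ω) {cf w : δ → Ω}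
    {B : A.ValueGroup} (hcf : ∀ j, cf j ∈ A) (hw : ∀ j, A.valuation (w j) ≤ B) :
    A.valuation (∑ j, cf j * w j) ≤ B :=
  A.valuation.map_sum_le fun j _ => by
    rw [map_mul]
    exact (mul_le_mul' ((A.valuation_le_one_iff _).mpr (hcf j)) (hw j)).trans_eq (one_mul _)

omit [IsAlgClosed Ω] [IsAlgClosed K] [IsAlgClosed L] [Fintype κ] [Nonempty κ] in
/-- A family with a certificate has the values of the whole basis. -/
theorem vmax_eq_of_cert {α β : Type*} [Fintype α] [Nonempty α] [Fintype β] [Nonempty β]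
    {γ : Type*} [Fintype γ] [Nonempty γ] (A : ValuationSubring Ω) {R : ι → Ω} {e : α → Ω}
    {e' : β → Ω} {e'' : γ → Ω} (he' : e' ≠ 0)
    {x : ι → α → Ω} (hx : ∀ i j, x i j ∈ A) (hR : ∀ i, R i = ∑ j, x i j * e j)
    {a : γ → ι → β → Ω} (ha : ∀ l i j, a l i j ∈ A)
    (hcert : ∀ l, e'' l = ∑ i, R i * ∑ j, a l i j * e' j)
    {m : α → β → γ → Ω} (hm : ∀ i j l, m i j l ∈ A)
    (hmul : ∀ i j, e i * e' j = ∑ l, m i j l * e'' l) :
    vmax A R = vmax A e := by
  refine le_antisymm (vmax_le_iff.mpr fun i => hR i ▸ valuation_comb_le A (hx i) fun j => le_vmax A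
      e j) ?_
  have hpos : 0 < vmax A e' := vmax_pos_of_ne A he'
  refine le_of_mul_le_mul_right ?_ hpos
  obtain ⟨i, hi⟩ := exists_vmax_eq A e
  obtain ⟨j, hj⟩ := exists_vmax_eq A e'
  rw [hi]
  conv_lhs => rw [hj, ← map_mul, hmul]
  refine valuation_comb_le A (hm i j) fun l => ?_
  rw [hcert]
  refine A.valuation.map_sum_le fun p _ => ?_
  rw [map_mul]
  exact mul_le_mul' (le_vmax A R p) (valuation_comb_le A (ha l p) fun j => le_vmax A e' j)

end Certificate

end Fermat.Agent.Row25.Split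

end
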