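import Fermat.Agent.Row25.AV.Split.Model
import Fermat.Agent.Row27.Transport
import Fermat.Agent.Row27.ThetaSpec
import Fermat.Agent.Row27.Cube.Classes

/-!
# The degree of a family of functions

The degree of a family of functions of level `b` is `b` less the degree of their common zeros. It
adds on products, only drops under specialisation, depends only on the values of the family at
the valuations of `Ω` up to a scalar, and vanishes only for proportional families.
-/

set_option autoImplicit false

noncomputable section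

open AlgebraicCurve Module

namespace Fermat.Agent.Row25.Split

open Fermat.Agent.Row27

universe u

variable {K : Type u} [Field K] (C : CurveData K) {L : Type u} [Field L] [Algebra K L]
  [IsAlgClosed L] {ι κ : Type*} {b : ℕ}

/-- The largest divisor of common zeros. -/
def IsZc (u : ι → C.Idx b → L) (E : Divisor L (C.curve L)) : Prop :=
  0 ≤ E ∧ (∀ i, u i ∈ C.W L b E) ∧ ∀ E', (∀ i, u i ∈ C.W L b E') → E' ≤ E

theorem mem_W_iff_le {E : Divisor L (C.curve L)} {x : C.Idx b → L} (hx : C.realF L b x ≠ 0) :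
    x ∈ C.W L b E ↔ E ≤ (C.rr L).divisor hx + C.binf L b := by
  rw [CurveData.mem_W, MWJ0.mem_Lsp_of_ne_zero hx]
  constructor <;> intro h v <;>
  · have h1 := h v
    simp only [Finsupp.sub_apply, Finsupp.add_apply, (C.rr L).divisor_apply hx] at h1 ⊢
    omega

theorem ord_pow_eq (v : Place L (C.curve L)) {f : C.curve L} (hf : f ≠ 0) (n : ℕ) :
    v.ord (f ^ n) = n * v.ord f := by
  induction n with
  | zero => simp [Place.ord_one]
  | succ n ih =>
    rw [pow_succ, v.ord_mul (pow_ne_zero n hf) hf, ih]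
    push_cast
    ring

variable [Fintype ι]

theorem exists_isZc {u : ι → C.Idx b → L} (hu : u ≠ 0) : ∃ E, IsZc C u E := by
  classical
  obtain ⟨i₀, hi₀⟩ := Function.ne_iff.mp hu
  set s : Finset {i // u i ≠ 0} := Finset.univ
  have hs : s.Nonempty := ⟨⟨i₀, hi₀⟩, Finset.mem_univ _⟩
  set f : {i // u i ≠ 0} → Divisor L (C.curve L) := fun i =>
    (C.rr L).divisor (C.realF_ne_zero L i.2) + C.binf L b
  refine ⟨s.inf' hs f, Finset.le_inf' _ _ fun i _ => ?_, fun i => ?_,
    fun E' hE' => Finset.le_inf' _ _ fun i _ =>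
      (mem_W_iff_le C (C.realF_ne_zero L i.2)).mp (hE' i.1)⟩
  · exact (mem_W_iff_le C (C.realF_ne_zero L i.2)).mp (C.mem_W_zero L _)
  · rcases eq_or_ne (u i) 0 with h | h
    · rw [h]; exact zero_mem _
    · exact (mem_W_iff_le C (C.realF_ne_zero L h)).mpr
        (Finset.inf'_le f (Finset.mem_univ (⟨i, h⟩ : {i // u i ≠ 0})))

open scoped Classical in
/-- The divisor of common zeros. -/
def zc (u : ι → C.Idx b → L) : Divisor L (C.curve L) :=
  if h : u ≠ 0 then (exists_isZc C h).choose else 0

/-- The degree of the family. -/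
def ht (u : ι → C.Idx b → L) : ℤ := (b : ℤ) - Divisor.degree (zc C u)

variable {C}

theorem isZc_zc {u : ι → C.Idx b → L} (hu : u ≠ 0) : IsZc C u (zc C u) := by
  rw [zc, dif_pos hu]
  exact (exists_isZc C hu).choose_spec

theorem le_zc {u : ι → C.Idx b → L} (hu : u ≠ 0) {E : Divisor L (C.curve L)}
    (hE : ∀ i, u i ∈ C.W L b E) : E ≤ zc C u := (isZc_zc hu).2.2 E hE

theorem zc_eq {u : ι → C.Idx b → L} (hu : u ≠ 0) {E : Divisor L (C.curve L)} (hE : IsZc C u E) :
    zc C u = E := le_antisymm (hE.2.2 _ (isZc_zc hu).2.1) (le_zc hu hE.2.1)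

/-- The order of the family at a place. -/
theorem zc_le_ord {u : ι → C.Idx b → L} (hu : u ≠ 0) {i : ι} (hi : u i ≠ 0)
    (v : Place L (C.curve L)) : zc C u v - C.binf L b v ≤ v.ord (C.realF L b (u i)) := by
  have := (mem_W_iff_le C (C.realF_ne_zero L hi)).mp ((isZc_zc hu).2.1 i) v
  rw [Finsupp.add_apply, (C.rr L).divisor_apply] at this
  omega

theorem exists_ord_eq_zc {u : ι → C.Idx b → L} (hu : u ≠ 0) (v : Place L (C.curve L)) :
    ∃ i, u i ≠ 0 ∧ v.ord (C.realF L b (u i)) = zc C u v - C.binf L b v := by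
  classical
  by_contra hcon
  push Not at hcon
  have h : zc C u + Finsupp.single v 1 ≤ zc C u := by
    refine le_zc hu fun i => ?_
    rcases eq_or_ne (u i) 0 with h | h
    · rw [h]; exact zero_mem _
    rw [mem_W_iff_le C (C.realF_ne_zero L h)]
    intro w
    rw [Finsupp.add_apply, Finsupp.add_apply, (C.rr L).divisor_apply]
    have h1 := zc_le_ord hu h w
    rcases eq_or_ne w v with rfl | hw
    · have h2 := hcon i h
      rw [Finsupp.single_eq_same]
      omega
    · rw [Finsupp.single_eq_of_ne hw]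
      omega
  have := h v
  rw [Finsupp.add_apply, Finsupp.single_eq_same] at this
  omega

theorem ht_nonneg {u : ι → C.Idx b → L} (hu : u ≠ 0) : 0 ≤ ht C u := by
  obtain ⟨i, hi⟩ := Function.ne_iff.mp hu
  have h := (C.rr L).degree_nonneg (sub_nonneg.mpr
    ((mem_W_iff_le C (C.realF_ne_zero L hi)).mp ((isZc_zc hu).2.1 i)))
  rw [map_sub, map_add, (C.rr L).degree_divisor, CurveData.binf, (C.rr L).degree_single] at h
  rw [ht]
  omega

/-- A family without degree is proportional to one of its members. -/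
theorem exists_smul_of_ht {u : ι → C.Idx b → L} (hu : u ≠ 0) (h : ht C u = 0) :
    ∃ i, u i ≠ 0 ∧ ∃ c : ι → L, ∀ j, u j = c j • u i := by
  obtain ⟨i, hi⟩ := Function.ne_iff.mp hu
  have hd : Divisor.degree (zc C u) = b := by rw [ht] at h; omega
  choose c hc using fun j =>
    C.exists_smul_eq hd ((isZc_zc hu).2.1 j) ((isZc_zc hu).2.1 i) hi
  exact ⟨i, hi, c, hc⟩

section Prod

variable [Fintype κ] {b' : ℕ}

/-- The products of two families. -/
def prodFam (u : ι → C.Idx b → L) (u' : κ → C.Idx b' → L) : ι × κ → C.Idx (b + b') → L :=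
  fun p => C.mulv b b' (b + b') (u p.1) (u' p.2)

omit [Fintype ι] [Fintype κ] in
theorem prodFam_ne_zero {u : ι → C.Idx b → L} {u' : κ → C.Idx b' → L} (hu : u ≠ 0) (hu' : u' ≠ 0) :
    prodFam u u' ≠ 0 := by
  obtain ⟨i, hi⟩ := Function.ne_iff.mp hu
  obtain ⟨j, hj⟩ := Function.ne_iff.mp hu'
  exact fun h => C.mulL_ne_zero L le_rfl (x := u i) (y := u' j) hi hj (congrFun h (i, j))

theorem ht_prodFam {u : ι → C.Idx b → L} {u' : κ → C.Idx b' → L} (hu : u ≠ 0) (hu' : u' ≠ 0) :
    ht C (prodFam u u') = ht C u + ht C u' := by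
  have e : zc C (prodFam u u') = zc C u + zc C u' := by
    refine zc_eq (prodFam_ne_zero hu hu') ⟨add_nonneg (isZc_zc hu).1 (isZc_zc hu').1, fun p =>
      C.mulL_mem L rfl ((isZc_zc hu).2.1 p.1) ((isZc_zc hu').2.1 p.2), fun E' hE' v => ?_⟩
    obtain ⟨i, hi, hiv⟩ := exists_ord_eq_zc hu v
    obtain ⟨j, hj, hjv⟩ := exists_ord_eq_zc hu' v
    have hne := C.mulL_ne_zero L le_rfl (x := u i) (y := u' j) (r := b + b') hi hj
    have h := (mem_W_iff_le C (C.realF_ne_zero L hne)).mp (hE' (i, j)) v
    rw [Finsupp.add_apply, (C.rr L).divisor_apply, C.realF_mulL L le_rfl,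
      v.ord_mul (C.realF_ne_zero L hi) (C.realF_ne_zero L hj), hiv, hjv,
      ← C.binf_add L (p := b) (q := b') rfl, Finsupp.add_apply] at h
    rw [Finsupp.add_apply]
    omega
  rw [ht, ht, ht, e, map_add]
  push_cast
  ring

end Prod

section Specialise

variable (T : SpecTheory C) {L' : Type u} [Field L'] [Algebra K L'] [IsAlgClosed L']

/-- Integral functions vanishing on a divisor specialise to functions vanishing on its image. -/
theorem map_mem_W (φ : Spec K L L') {D : Divisor L (C.curve L)} (hD : 0 ≤ D) {x : C.Idx b → φ.dom}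
    (hx : (fun l => (x l : L)) ∈ C.W L b D) :
    (fun l => φ.map (x l)) ∈ C.W L' b (T.push φ D) := by
  classical
  obtain ⟨d, hd⟩ : ∃ d : ℕ, Divisor.degree D = d :=
    ⟨_, (Int.toNat_of_nonneg ((C.rr L).degree_nonneg hD)).symm⟩
  set q := 2 * C.g + 1 + d with hq
  obtain ⟨w, hw⟩ := C.exists_isExact L' (p := q) (A := 0) le_rfl
    (by rw [map_zero]; omega) (T.push φ D)
  set xb : C.Idx b → L' := fun l => φ.map (x l) with hxb
  have key : ∀ j : C.Idx q, C.mulL L' (q + b) (Pi.single j 1) xb ∈
      C.W L' (q + b) (T.push φ D) := by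
    intro j
    have hb : 2 * (C.g : ℤ) + Divisor.degree D < ((q + b : ℕ) : ℤ) := by
      rw [hd]; push_cast; omega
    rw [T.push_apply, ← T.mapSub_W φ D hD (q + b) hb]
    let := φ.domAlg
    refine Submodule.subset_span ⟨C.mulv q b (q + b) (Pi.single j 1) x, ?_, ?_⟩
    · have h1 : C.mulL L (q + b) (Pi.single j 1) (fun l => (x l : L)) ∈ C.W L (q + b) (0 + D) :=
        C.mulL_mem L rfl (C.mem_W_zero L _) hx
      rw [zero_add] at h1
      convert h1 using 1
      funext l
      show φ.valA (C.mulv q b (q + b) (Pi.single j 1) x l) = _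
      rw [CurveData.mulv, map_mulVec]
      congr 1
      funext i
      simp [Pi.single_apply, apply_ite φ.valA]
    · funext l
      show _ = φ.mapA (C.mulv q b (q + b) (Pi.single j 1) x l)
      rw [CurveData.mulv, map_mulVec,
        show (fun i => φ.mapA ((Pi.single j 1 : C.Idx q → φ.dom) i)) = Pi.single j 1 from
          funext fun i => by simp [Pi.single_apply, apply_ite φ.mapA]]
      rfl
  have hwx : C.mulL L' (q + b) w xb ∈ C.W L' (q + b) (0 + 0 + T.push φ D) := by
    rw [add_zero, zero_add]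
    have e : C.mulL L' (q + b) w xb = ∑ j, w j • C.mulL L' (q + b) (Pi.single j 1) xb := by
      refine C.realF_injective L' _ ?_
      simp only [map_sum, map_smul, C.realF_mulL L' le_rfl]
      conv_lhs => rw [pi_eq_sum_univ' w]
      simp only [map_sum, map_smul, Finset.sum_mul, smul_mul_assoc]
    rw [e]
    exact Submodule.sum_mem _ fun j _ => Submodule.smul_mem _ _ (key j)
  have := C.mem_of_mulL_mem L' rfl hw (C.mem_W_zero L' xb) hwx
  rwa [zero_add] at this

include T in
/-- **The degree can only drop.** -/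
theorem ht_map_le (φ : Spec K L L') {u : ι → C.Idx b → φ.dom}
    (hu : (fun i l => φ.map (u i l)) ≠ 0) :
    ht C (fun i l => φ.map (u i l)) ≤ ht C (fun i l => (u i l : L)) := by
  have hu' : (fun i l => (u i l : L)) ≠ 0 := fun h => hu (funext fun i => funext fun l => by
    have : u i l = 0 := Subtype.ext (congrFun (congrFun h i) l)
    rw [this, map_zero]
    rfl)
  have h := le_zc hu fun i => map_mem_W T φ (isZc_zc hu').1 ((isZc_zc hu').2.1 i)
  have h1 := (C.rr L').degree_nonneg (sub_nonneg.mpr h)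
  rw [map_sub, T.degree_push] at h1
  rw [ht, ht]
  omega

include T in
/-- A family of functions over `K` has the same degree over `L`. -/
theorem ht_base_change [IsAlgClosed K] {z : ι → C.Idx b → K} (hz : z ≠ 0) :
    ht C (fun i l => algebraMap K L (z i l)) = ht C z := by
  refine le_antisymm ?_ ?_
  · have hz' : (fun i l => algebraMap K L (z i l)) ≠ 0 := fun h => hz (funext fun i =>
      funext fun l => (map_eq_zero (algebraMap K L)).mp (congrFun (congrFun h i) l))
    exact ht_map_le T (Spec.ofAlgHom (Algebra.ofId K L))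
      (u := fun i l => ⟨z i l, ValuationSubring.mem_top _⟩) hz'
  · obtain ⟨φ, -⟩ := exists_spec_finset (K := K) (∅ : Finset L)
    have e : (fun i l => φ.map ⟨algebraMap K L (z i l), φ.trivOn _⟩) = z :=
      funext fun i => funext fun l => φ.map_algebraMap (z i l)
    have := ht_map_le T φ (u := fun i l => ⟨algebraMap K L (z i l), φ.trivOn _⟩)
      (by rw [e]; exact hz)
    rwa [e] at this

end Specialise

section Values

variable [IsAlgClosed K] {Ω : Type u} [Field Ω] [Algebra K Ω] [IsAlgClosed Ω]
  (em : C.curve K →ₐ[K] Ω) (ψ : L →ₐ[K] Ω) (hd : Disj K (Set.range ψ) (Set.range em))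
  [Nonempty ι] [Fintype κ] [Nonempty κ]

omit [IsAlgClosed Ω] in
/-- The value of the family at the valuation ring of a place. -/
theorem vmax_eq_ord {u : ι → C.Idx b → L} (hu : u ≠ 0) {v : Place L (C.curve L)}
    {A : ValuationSubring Ω}
    (hA : ∀ f g : C.curve L, g ≠ 0 → (A.valuation (iota C em ψ hd f) ≤
      A.valuation (iota C em ψ hd g) ↔ f = 0 ∨ v.ord g ≤ v.ord f)) :
    ∃ f, f ≠ 0 ∧ v.ord f = zc C u v - C.binf L b v ∧
      vmax A (fun i => evV C em ψ b (u i)) = A.valuation (iota C em ψ hd f) := by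
  obtain ⟨i, hi, hiv⟩ := exists_ord_eq_zc hu v
  refine ⟨_, C.realF_ne_zero L hi, hiv, ?_⟩
  rw [iota_realF]
  refine le_antisymm (vmax_le_iff.mpr fun j => ?_) (le_vmax A (fun i => evV C em ψ b (u i)) i)
  rw [← iota_realF C em ψ hd, ← iota_realF C em ψ hd, hA _ _ (C.realF_ne_zero L hi)]
  rcases eq_or_ne (u j) 0 with h | h
  · exact Or.inl (by rw [h, map_zero])
  · exact Or.inr (hiv.le.trans (zc_le_ord hu h v))

include hd in
/-- Families with proportional values at all valuations have the same degree. -/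
theorem ht_eq_of_vmax {b' : ℕ} {u : ι → C.Idx b → L} {u' : κ → C.Idx b' → L} (hu : u ≠ 0)
    (hu' : u' ≠ 0) (halg : ∀ z : Ω, IsAlgebraic (iota C em ψ hd).fieldRange z) {lam : Ω}
    (hlam : lam ≠ 0)
    (h : ∀ A : ValuationSubring Ω, TrivOn K A → (∀ l, ψ l ∈ A) →
      vmax A (fun i => evV C em ψ b (u i)) =
        A.valuation lam * vmax A (fun i => evV C em ψ b' (u' i))) :
    ht C u = ht C u' := by
  classical
  set I := iota C em ψ hd with hI
  set F1 : Subfield Ω := I.fieldRange
  have hint : IsIntegral F1 lam := (halg lam).isIntegral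
  have : Algebra.IsAlgebraic F1 Ω := ⟨halg⟩
  set p := minpoly F1 lam
  have hsplit : (p.map (algebraMap F1 Ω)).Splits := IsAlgClosed.splits _
  obtain ⟨c0, hc0⟩ := (p.coeff 0).2
  have hc0' : c0 ≠ 0 := fun e => minpoly.coeff_zero_ne_zero hint hlam (Subtype.ext (by
    rw [← hc0, e, map_zero]; rfl))
  set D := p.natDegree with hD
  have hD0 : 0 < D := minpoly.natDegree_pos hint
  -- the norm has the values of a power of `lam`
  have hnorm : ∀ A : ValuationSubring Ω, TrivOn K A → (∀ l, ψ l ∈ A) →
      A.valuation (I c0) = A.valuation lam ^ D := by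
    intro A hA hl
    have hroot : ∀ r ∈ (p.map (algebraMap F1 Ω)).roots, A.valuation r = A.valuation lam := by
      intro r hr
      have hr' : r ∈ p.rootSet Ω := by
        rw [Polynomial.rootSet_def, Finset.mem_coe, Multiset.mem_toFinset]
        exact hr
      rw [← Algebra.IsAlgebraic.range_eval_eq_rootSet_minpoly (F := F1) Ω lam] at hr'
      obtain ⟨τ, rfl⟩ := hr'
      have hfixL : ∀ l, τ (ψ l) = ψ l := fun l => by
        rw [← iota_algebraMap C em ψ hd l]
        exact τ.commutes ⟨_, algebraMap L (C.curve L) l, rfl⟩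
      let τK : Ω →ₐ[K] Ω :=
        { τ.toRingHom with
          commutes' := fun c => (congrArg τ (ψ.commutes c).symm).trans
            ((hfixL _).trans (ψ.commutes c)) }
      have hfix : ∀ {m : ℕ} (x : C.Idx m → L), τK (evV C em ψ m x) = evV C em ψ m x := fun x => by
        rw [← iota_realF C em ψ hd]
        exact τ.commutes ⟨_, _, rfl⟩
      have hB : TrivOn K (A.comap (τK : Ω →+* Ω)) := hA.comap τK
      have hlB : ∀ l, ψ l ∈ A.comap (τK : Ω →+* Ω) := fun l => by
        rw [ValuationSubring.mem_comap]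
        show τ (ψ l) ∈ A
        rw [hfixL]
        exact hl l
      set B := A.comap (τK : Ω →+* Ω)
      obtain ⟨i, hi⟩ := exists_vmax_eq B fun i => evV C em ψ b (u i)
      obtain ⟨k, hk⟩ := exists_vmax_eq B fun i => evV C em ψ b' (u' i)
      have hiA : vmax A (fun i => evV C em ψ b (u i)) = A.valuation (evV C em ψ b (u i)) := by
        refine le_antisymm (vmax_le_iff.mpr fun j => ?_) (le_vmax A (fun i => evV C em ψ b (u i)) i)
        have h1 := (le_vmax B (fun i => evV C em ψ b (u i)) j).trans hi.le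
        rwa [valuation_comap_le_iff, hfix, hfix] at h1
      have hkA : vmax A (fun i => evV C em ψ b' (u' i)) = A.valuation (evV C em ψ b' (u' k)) := by
        refine le_antisymm (vmax_le_iff.mpr fun j => ?_)
          (le_vmax A (fun i => evV C em ψ b' (u' i)) k)
        have h1 := (le_vmax B (fun i => evV C em ψ b' (u' i)) j).trans hk.le
        rwa [valuation_comap_le_iff, hfix, hfix] at h1
      have h2 := h B hB hlB
      rw [hi, hk, ← map_mul] at h2
      have h3 : A.valuation (τK (evV C em ψ b (u i))) =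
          A.valuation (τK (lam * evV C em ψ b' (u' k))) :=
        le_antisymm ((valuation_comap_le_iff A τK).mp h2.le)
            ((valuation_comap_le_iff A τK).mp h2.ge)
      rw [map_mul τK, hfix, hfix, map_mul, ← hiA, ← hkA, h A hA hl] at h3
      obtain ⟨k', hk'⟩ := Function.ne_iff.mp hu'
      have hne : vmax A (fun i => evV C em ψ b' (u' i)) ≠ 0 := fun e => by
        have h4 := le_vmax A (fun i => evV C em ψ b' (u' i)) k'
        rw [e, le_zero_iff, Valuation.zero_iff] at h4
        exact hk' (evV_injective C em ψ hd h4)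
      exact (mul_right_cancel₀ hne h3).symm
    have hcoeff : I c0 = (-1) ^ D * (p.map (algebraMap F1 Ω)).roots.prod := by
      have h1 := hsplit.coeff_zero_eq_prod_roots_of_monic ((minpoly.monic hint).map _)
      rw [Polynomial.coeff_map, Polynomial.natDegree_map] at h1
      rw [hc0]
      exact h1
    rw [hcoeff, map_mul, map_pow, Valuation.map_neg, map_one, one_pow, one_mul, map_multiset_prod,
      Multiset.map_congr rfl hroot, Multiset.map_const', Multiset.prod_replicate,
      ← hsplit.natDegree_eq_card_roots, Polynomial.natDegree_map]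
  -- compare at the places
  have hkey : ∀ v : Place L (C.curve L), (D : ℤ) * (zc C u v - C.binf L b v) =
      v.ord c0 + (D : ℤ) * (zc C u' v - C.binf L b' v) := by
    intro v
    obtain ⟨A, hA, hl, hcmp⟩ := exists_valuation C em ψ hd v
    obtain ⟨f, hf0, hf, hfv⟩ := vmax_eq_ord em ψ hd hu hcmp
    obtain ⟨g, hg0, hg, hgv⟩ := vmax_eq_ord em ψ hd hu' hcmp
    have h1 := congrArg (· ^ D) (h A hA hl)
    simp only [hfv, hgv, mul_pow] at h1
    rw [← hnorm A hA hl, hI] at h1
    simp only [← map_pow, ← map_mul] at h1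
    have hne : c0 * g ^ D ≠ 0 := mul_ne_zero hc0' (pow_ne_zero _ hg0)
    have h2 := ((hcmp _ _ hne).mp h1.le).resolve_left (pow_ne_zero _ hf0)
    have h3 := ((hcmp _ _ (pow_ne_zero _ hf0)).mp h1.ge).resolve_left hne
    rw [v.ord_mul hc0' (pow_ne_zero _ hg0), ord_pow_eq C v hg0, ord_pow_eq C v hf0, hf, hg] at h2 h3
    omega
  have hsum : (D : ℤ) • (zc C u - C.binf L b) =
      (C.rr L).divisor hc0' + (D : ℤ) • (zc C u' - C.binf L b') := by
    ext v
    simp only [Finsupp.smul_apply, Finsupp.sub_apply, Finsupp.add_apply, smul_eq_mul,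
      (C.rr L).divisor_apply, hkey v]
  have h1 := congrArg Divisor.degree hsum
  simp only [map_zsmul, map_add, map_sub, (C.rr L).degree_divisor, zero_add, CurveData.binf,
    (C.rr L).degree_single, smul_eq_mul] at h1
  have h2 := mul_left_cancel₀ (by exact_mod_cast hD0.ne') h1
  rw [ht, ht]
  omega

end Values

end Fermat.Agent.Row25.Split

end
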