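import Fermat.Agent.Row25.AV.Split.Spec
import Fermat.Agent.Row27.Cube.Spaces
import Mathlib.FieldTheory.IsAlgClosed.Basic

/-!
# The function field of a model inside a field of constants

A model of a function field inside `Ω` is curve data `C` with an embedding `em` of its field over
`K`. For constants `ψ : L →ₐ[K] Ω` linearly disjoint from the image, the field of the curve over
`L` embeds into `Ω`, and every place extends to a valuation ring of `Ω`.
-/

set_option autoImplicit false

noncomputable section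

open AlgebraicCurve Module

namespace Fermat.Agent.Row25.Split

open Fermat.Agent.Row27

universe u

variable {K : Type u} [Field K] [IsAlgClosed K] (C : CurveData K)
  {Ω : Type u} [Field Ω] [Algebra K Ω]

variable (em : C.curve K →ₐ[K] Ω) {L : Type u} [Field L] [Algebra K L] (ψ : L →ₐ[K] Ω)

/-- The value of the basis of level `b`. -/
def basV (b : ℕ) (j : C.Idx b) : Ω := em (C.realF K b (Pi.single j 1))

/-- The function of a coordinate vector, as an element of `Ω`. -/
def evV (b : ℕ) (x : C.Idx b → L) : Ω := ∑ j, ψ (x j) * basV C em b j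

theorem em_realF (b : ℕ) (k : C.Idx b → K) :
    em (C.realF K b k) = ∑ j, algebraMap K Ω (k j) * basV C em b j := by
  conv_lhs => rw [pi_eq_sum_univ' k]
  simp only [map_sum, map_smul, basV]
  exact Finset.sum_congr rfl fun j _ => Algebra.smul_def _ _

theorem evV_smul (b : ℕ) (c : L) (x : C.Idx b → L) :
    evV C em ψ b (c • x) = ψ c * evV C em ψ b x := by
  simp [evV, Finset.mul_sum, mul_assoc]

theorem evV_mulv {a b c : ℕ} (h : a + b ≤ c) (x : C.Idx a → L) (y : C.Idx b → L) :
    evV C em ψ c (C.mulv a b c x y) = evV C em ψ a x * evV C em ψ b y := by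
  have hb : ∀ i j, basV C em a i * basV C em b j =
      ∑ l, algebraMap K Ω (C.sc a b c i j l) * basV C em c l := by
    intro i j
    rw [basV, basV, ← map_mul, ← C.realF_mul K a b c h, em_realF]
    refine Finset.sum_congr rfl fun l _ => ?_
    congr 2
    simp [mulVec, Pi.single_apply, Finset.sum_ite_eq', mul_ite]
  simp only [evV, CurveData.mulv, mulVec, map_sum, Finset.sum_mul, Finset.mul_sum, Algebra.smul_def,
    map_mul, AlgHom.commutes]
  rw [Finset.sum_comm]
  conv_rhs => rw [Finset.sum_comm]
  refine Finset.sum_congr rfl fun i _ => ?_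
  rw [Finset.sum_comm]
  refine Finset.sum_congr rfl fun j _ => ?_
  rw [mul_mul_mul_comm, hb i j, Finset.mul_sum]
  exact Finset.sum_congr rfl fun l _ => by ring

theorem evV_one (b : ℕ) : evV C em ψ b (fun i => algebraMap K L (C.one b i)) = 1 := by
  have h := em_realF C em b (C.one b)
  have h1 := C.realF_one K b
  simp only [Algebra.algebraMap_self, RingHom.id_apply] at h1
  rw [h1, map_one] at h
  rw [h, evV]
  simp

variable (hd : Disj K (Set.range ψ) (Set.range em))

include hd in
theorem evV_injective {b : ℕ} {x : C.Idx b → L} (h : evV C em ψ b x = 0) : x = 0 := by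
  have hind : LinearIndependent K (basV C em b) := by
    rw [show basV C em b = (em.toLinearMap ∘ₗ C.realF K b) ∘ fun j => Pi.basisFun K (C.Idx b) j from
      funext fun j => by simp [basV]]
    exact (Pi.basisFun K (C.Idx b)).linearIndependent.map' _
      (LinearMap.ker_eq_bot.mpr (em.toRingHom.injective.comp (C.realF_injective K b)))
  funext j
  exact (map_eq_zero ψ).mp (hd _ (fun i => ψ (x i)) (basV C em b) (fun i => ⟨_, rfl⟩)
    (fun i => ⟨_, rfl⟩) hind h j)

variable [IsAlgClosed L]

omit [IsAlgClosed K] in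
/-- Every function is a quotient of two functions of one level. -/
theorem exists_frac (f : C.curve L) :
    ∃ (b : ℕ) (x w : C.Idx b → L), w ≠ 0 ∧ f * C.realF L b w = C.realF L b x := by
  classical
  rcases eq_or_ne f 0 with rfl | hf
  · exact ⟨0, 0, fun i => algebraMap K L (C.one 0 i), fun h => by
      have := C.realF_one L 0
      rw [h, map_zero] at this
      exact zero_ne_one this, by rw [zero_mul, map_zero]⟩
  set D := (C.rr L).divisor hf
  set E : Divisor L (C.curve L) := D.mapRange (fun z => max (-z) 0) (by simp) with hE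
  have hE0 : 0 ≤ E := fun v => by rw [hE, Finsupp.mapRange_apply]; exact le_max_right _ _
  have hEd : 0 ≤ Divisor.degree E := (C.rr L).degree_nonneg hE0
  obtain ⟨b, hb⟩ : ∃ b : ℕ, (b : ℤ) = 2 * C.g + 1 + Divisor.degree E :=
    ⟨(2 * (C.g : ℤ) + 1 + Divisor.degree E).toNat, Int.toNat_of_nonneg (by omega)⟩
  have hdeg : Divisor.degree (C.binf L b - E) = b - Divisor.degree E := by
    rw [map_sub, CurveData.binf, (C.rr L).degree_single]
  have hne : riemannRochSpace (C.binf L b - E) ≠ ⊥ := fun e => by
    have := (C.rr L).dim_eq (C.binf L b - E) (by rw [hdeg, C.rr_g]; omega)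
    rw [e, finrank_bot, hdeg, C.rr_g] at this
    omega
  obtain ⟨r, hr, hr0⟩ := (Submodule.ne_bot_iff _).mp hne
  obtain ⟨w, -, rfl⟩ := C.exists_eq_realF L hE0 hr
  have hmem : f * C.realF L b w ∈ riemannRochSpace (C.binf L b - 0) := by
    rw [MWJ0.mem_Lsp_of_ne_zero (mul_ne_zero hf hr0)]
    intro v
    have h1 := (MWJ0.mem_Lsp_of_ne_zero hr0).mp hr v
    have h2 : D v = v.ord f := (C.rr L).divisor_apply hf v
    have h3 : E v = max (-D v) 0 := by rw [hE, Finsupp.mapRange_apply]
    rw [v.ord_mul hf hr0]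
    simp only [Finsupp.sub_apply, Finsupp.coe_zero, Pi.zero_apply] at h1 ⊢
    omega
  obtain ⟨x, -, hx⟩ := C.exists_eq_realF L le_rfl hmem
  exact ⟨b, x, w, fun h => hr0 (by rw [h, map_zero]), hx.symm⟩

/-- The embedding of a function, as a quotient. -/
def iotaFun (f : C.curve L) : Ω :=
  evV C em ψ (exists_frac C f).choose (exists_frac C f).choose_spec.choose /
    evV C em ψ (exists_frac C f).choose (exists_frac C f).choose_spec.choose_spec.choose

include hd in
theorem iotaFun_eq {f : C.curve L} {b : ℕ} {x w : C.Idx b → L} (hw : w ≠ 0)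
    (h : f * C.realF L b w = C.realF L b x) :
    iotaFun C em ψ f = evV C em ψ b x / evV C em ψ b w := by
  set b₀ := (exists_frac C f).choose
  set x₀ := (exists_frac C f).choose_spec.choose
  set w₀ := (exists_frac C f).choose_spec.choose_spec.choose
  obtain ⟨hw₀, h₀⟩ := (exists_frac C f).choose_spec.choose_spec.choose_spec
  show evV C em ψ b₀ x₀ / evV C em ψ b₀ w₀ = _
  rw [div_eq_div_iff (fun e => hw₀ (evV_injective C em ψ hd e))
    (fun e => hw (evV_injective C em ψ hd e)), ← evV_mulv C em ψ le_rfl x₀ w,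
    mul_comm (evV C em ψ b x), ← evV_mulv C em ψ le_rfl w₀ x]
  congr 1
  refine C.realF_injective L _ ?_
  unfold CurveData.mulv
  rw [C.realF_mul L _ _ _ le_rfl, C.realF_mul L _ _ _ le_rfl, ← h₀, ← h]
  ring

/-- **The embedding of the function field over `L`.** -/
def iota : C.curve L →+* Ω where
  toFun := iotaFun C em ψ
  map_one' := by
    have h1 := C.realF_one L 0
    have hw : (fun i => algebraMap K L (C.one 0 i)) ≠ 0 := fun h => by
      rw [h, map_zero] at h1; exact zero_ne_one h1
    rw [iotaFun_eq C em ψ hd (f := 1) hw (one_mul _), div_self fun e =>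
      hw (evV_injective C em ψ hd e)]
  map_mul' f g := by
    obtain ⟨b, x, w, hw, h⟩ := exists_frac C f
    obtain ⟨b', x', w', hw', h'⟩ := exists_frac C g
    rw [iotaFun_eq C em ψ hd hw h, iotaFun_eq C em ψ hd hw' h', div_mul_div_comm,
      ← evV_mulv C em ψ le_rfl, ← evV_mulv C em ψ le_rfl]
    refine iotaFun_eq C em ψ hd (fun e => ?_) ?_
    · have := C.mulL_ne_zero L le_rfl (x := w) (y := w') hw hw'
      exact this e
    · unfold CurveData.mulv
      rw [C.realF_mul L _ _ _ le_rfl, C.realF_mul L _ _ _ le_rfl, ← h, ← h']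
      ring
  map_zero' := by
    obtain ⟨b, x, w, hw, h⟩ := exists_frac C (0 : C.curve L)
    rw [zero_mul] at h
    rw [iotaFun_eq C em ψ hd (f := 0) hw (by rw [zero_mul, ← h]),
      show x = 0 from C.realF_injective L b (by rw [← h, map_zero]), show evV C em ψ b 0 = 0 by
        simp [evV], zero_div]
  map_add' f g := by
    obtain ⟨b, x, w, hw, h⟩ := exists_frac C f
    obtain ⟨b', x', w', hw', h'⟩ := exists_frac C g
    have hwe : ∀ {c : ℕ} {z : C.Idx c → L}, z ≠ 0 → evV C em ψ c z ≠ 0 := fun hz e =>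
      hz (evV_injective C em ψ hd e)
    rw [iotaFun_eq C em ψ hd hw h, iotaFun_eq C em ψ hd hw' h', div_add_div _ _ (hwe hw) (hwe hw'),
      ← evV_mulv C em ψ le_rfl x w', ← evV_mulv C em ψ le_rfl w x', ← evV_mulv C em ψ le_rfl w w',
      show evV C em ψ (b + b') (C.mulv b b' (b + b') x w') +
          evV C em ψ (b + b') (C.mulv b b' (b + b') w x') =
        evV C em ψ (b + b') (C.mulv b b' (b + b') x w' + C.mulv b b' (b + b') w x') by
          simp [evV, add_mul, Finset.sum_add_distrib]]
    refine iotaFun_eq C em ψ hd (fun e => C.mulL_ne_zero L le_rfl (x := w) (y := w') hw hw' e) ?_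
    unfold CurveData.mulv
    rw [map_add, C.realF_mul L _ _ _ le_rfl, C.realF_mul L _ _ _ le_rfl, C.realF_mul L _ _ _ le_rfl,
      ← h, ← h']
    ring

theorem iota_realF (b : ℕ) (x : C.Idx b → L) :
    iota C em ψ hd (C.realF L b x) = evV C em ψ b x := by
  have h1 := C.realF_one L 0
  have hw : (fun i => algebraMap K L (C.one 0 i)) ≠ 0 := fun h => by
    rw [h, map_zero] at h1; exact zero_ne_one h1
  show iotaFun C em ψ (C.realF L b x) = _
  set w : C.Idx b → L := fun i => algebraMap K L (C.one b i) with hwb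
  have hw' : w ≠ 0 := fun h => by
    have h2 := C.realF_one L b
    rw [← hwb, h, map_zero] at h2
    exact zero_ne_one h2
  rw [iotaFun_eq C em ψ hd hw' (x := x) (by rw [hwb, C.realF_one, mul_one]), hwb, evV_one,
    div_one]

theorem iota_algebraMap (c : L) : iota C em ψ hd (algebraMap L (C.curve L) c) = ψ c := by
  rw [Algebra.algebraMap_eq_smul_one, ← C.realF_one L 0, ← map_smul, iota_realF, evV_smul, evV_one,
    mul_one]

/-- **Places extend to valuation rings of `Ω`.** -/
theorem exists_valuation (v : Place L (C.curve L)) :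
    ∃ A : ValuationSubring Ω, TrivOn K A ∧ (∀ l, ψ l ∈ A) ∧
      ∀ f g : C.curve L, g ≠ 0 →
        (A.valuation (iota C em ψ hd f) ≤ A.valuation (iota C em ψ hd g) ↔
          f = 0 ∨ v.ord g ≤ v.ord f) := by
  set ι := iota C em ψ hd
  set R : Subring Ω := v.toValuationSubring.toSubring.map ι
  set I : Ideal R := Ideal.map
    ((ι.comp v.toValuationSubring.subtype).codRestrict R fun x => ⟨x, x.2, rfl⟩)
    (IsLocalRing.maximalIdeal v.toValuationSubring)
  have hbij : Function.Bijective
      ((ι.comp v.toValuationSubring.subtype).codRestrict R fun x => ⟨x, x.2, rfl⟩) := by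
    refine ⟨fun x y h => Subtype.ext (ι.injective (congrArg Subtype.val h)), ?_⟩
    rintro ⟨_, x, hx, rfl⟩
    exact ⟨⟨x, hx⟩, rfl⟩
  have hI : I ≠ ⊤ := by
    intro h
    have h1 : (1 : R) ∈ I := by rw [h]; trivial
    obtain ⟨x, hx, hx1⟩ := (Ideal.mem_map_iff_of_surjective _ hbij.2).mp h1
    rw [hbij.1 (hx1.trans (map_one _).symm)] at hx
    exact (IsLocalRing.maximalIdeal.isMaximal _).ne_top ((Ideal.eq_top_iff_one _).mpr hx)
  obtain ⟨A, hA, hA'⟩ := Ideal.image_subset_nonunits_valuationSubring I hI
  have hmem : ∀ {f : C.curve L}, ι f ∈ A ↔ f ∈ v.toValuationSubring := by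
    intro f
    refine ⟨fun h => ?_, fun h => hA ⟨f, h, rfl⟩⟩
    by_contra hf
    have hf0 : f ≠ 0 := fun e => hf (e ▸ zero_mem _)
    have hinv : f⁻¹ ∈ v.toValuationSubring := (v.toValuationSubring.mem_or_inv_mem f).resolve_left
        hf
    have hm : (⟨f⁻¹, hinv⟩ : v.toValuationSubring) ∈ IsLocalRing.maximalIdeal _ := by
      rw [IsLocalRing.mem_maximalIdeal, mem_nonunits_iff]
      intro hu
      obtain ⟨y, hy⟩ := isUnit_iff_exists_inv.mp hu
      refine hf ?_
      rw [show f = (y : C.curve L) from (eq_inv_of_mul_eq_one_right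
        (congrArg Subtype.val hy :) |>.trans (inv_inv f)).symm]
      exact y.2
    have h2 := hA' ⟨_, Ideal.mem_map_of_mem _ hm, rfl⟩
    rcases (ValuationSubring.mem_nonunits_iff_or _).mp h2 with h3 | h3
    · exact inv_ne_zero hf0 (ι.injective (h3.trans (map_zero ι).symm))
    · refine h3 ?_
      show (ι f⁻¹)⁻¹ ∈ A
      rwa [map_inv₀, inv_inv]
  have hl : ∀ l, ψ l ∈ A := fun l => by
    rw [← iota_algebraMap C em ψ hd]
    exact hmem.mpr (v.algebraMap_mem' l)
  refine ⟨A, fun c => ψ.commutes c ▸ hl _, hl, fun f g hg => ?_⟩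
  rw [valuation_le_iff_div_mem A ((map_ne_zero ι).mpr hg), ← map_div₀, hmem,
    MWJ0.mem_valuationSubring_iff_ord]
  rcases eq_or_ne f 0 with rfl | hf
  · simp
  rw [div_eq_mul_inv, v.ord_mul hf (inv_ne_zero hg), v.ord_inv]
  simp only [mul_eq_zero, hf, inv_eq_zero, hg, or_self, false_or]
  omega

end Fermat.Agent.Row25.Split

end
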